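/-
S18 / package GaussRing (helper66): the residue field of a valuation subring of an algebraically
closed field is algebraically closed; characteristic of the residue field of a valuation subring
of `ℚ̄` lying over `ℓ`.
-/
import Mathlib
import Fermat.Prelude.Def_FLTPrelim_Ramification

set_option autoImplicit false

noncomputable section

namespace Fermat.Agent.S18.H66

open Polynomial

section AlgClosed

variable {K : Type*} [Field K] (A : ValuationSubring K)

/-- A root in `K` of a monic polynomial over `A` lies in `A`. -/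
theorem mem_of_monic_root {P : A[X]} (hP : P.Monic) {α : K}
    (hα : (P.map A.subtype).eval α = 0) : α ∈ A := by
  have hint : IsIntegral A α := ⟨P, hP, by
    rw [eval_map] at hα; exact hα⟩
  have h := (IsIntegrallyClosed.isIntegral_iff (R := A) (K := K)).mp hint
  obtain ⟨y, rfl⟩ := h
  exact y.2

instance isAlgClosed_residueField [IsAlgClosed K] :
    IsAlgClosed (IsLocalRing.ResidueField A) := by
  refine IsAlgClosed.of_exists_root _ fun p hp _ => ?_
  obtain ⟨P, hPmap, hPdeg, hPmonic⟩ :=
    lifts_and_degree_eq_and_monic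
      ((mem_lifts p).mpr (map_surjective _ IsLocalRing.residue_surjective p)) hp
  have hdeg : (P.map A.subtype).degree ≠ 0 := by
    rw [degree_map_eq_of_injective A.subtype_injective, hPdeg]
    exact fun h => (‹Irreducible p›).not_isUnit (isUnit_iff_degree_eq_zero.mpr h)
  obtain ⟨α, hα⟩ := IsAlgClosed.exists_root (P.map A.subtype) hdeg
  have hαA : α ∈ A := mem_of_monic_root A hPmonic hα
  refine ⟨IsLocalRing.residue A ⟨α, hαA⟩, ?_⟩
  have h0 : P.eval (⟨α, hαA⟩ : A) = 0 := by
    apply A.subtype_injective
    have h1 : A.subtype (P.eval (⟨α, hαA⟩ : A)) = (P.map A.subtype).eval α := by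
      rw [eval_map, eval, hom_eval₂]
      rfl
    rw [h1, map_zero]
    exact hα
  have h2 := eval₂_hom (p := P) (IsLocalRing.residue A) (⟨α, hαA⟩ : A)
  rw [← hPmap, eval_map, h2, h0, map_zero]

end AlgClosed

section CharL

variable {L : Type*} [Field L] (A : ValuationSubring L)

theorem residue_natCast_eq_zero {ℓ : ℕ} (hA : A.LiesOverPrime ℓ) :
    ((ℓ : ℕ) : IsLocalRing.ResidueField A) = 0 := by
  have h1 : ((ℓ : A) : L) ∈ A.nonunits := by
    have h := hA
    unfold ValuationSubring.LiesOverPrime at h
    simpa using h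
  have h2 : ¬ IsUnit (ℓ : A) := by
    intro hu
    have := (ValuationSubring.mem_nonunits_iff_exists_mem_maximalIdeal.mp h1)
    obtain ⟨ha, hm⟩ := this
    have heq : (⟨((ℓ : A) : L), ha⟩ : A) = (ℓ : A) := Subtype.ext rfl
    rw [heq] at hm
    exact (IsLocalRing.mem_maximalIdeal _).mp hm hu
  have h3 : IsLocalRing.residue A (ℓ : A) = 0 :=
    (IsLocalRing.residue_eq_zero_iff _).mpr ((IsLocalRing.mem_maximalIdeal _).mpr h2)
  simpa using h3

theorem charP_residueField {ℓ : ℕ} [Fact ℓ.Prime] (hA : A.LiesOverPrime ℓ) :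
    CharP (IsLocalRing.ResidueField A) ℓ := by
  have h0 := residue_natCast_eq_zero A hA
  have hdvd : ringChar (IsLocalRing.ResidueField A) ∣ ℓ := ringChar.dvd h0
  have hne : ringChar (IsLocalRing.ResidueField A) ≠ 1 := by
    intro h1
    have := CharP.ringChar_ne_one (R := IsLocalRing.ResidueField A)
    exact this h1
  have heq : ringChar (IsLocalRing.ResidueField A) = ℓ :=
    ((Nat.dvd_prime (Fact.out : ℓ.Prime)).mp hdvd).resolve_left hne
  exact ringChar.of_eq heq

end CharL

end Fermat.Agent.S18.H66
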