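/-
S18 / package GaussRing (helper66): the S28 bridge.
* characteristic 0 over `ℚ̄`: `[ℚ̄(j(q^d) : d ∣ N) : ℚ̄(j(q^N))] ≤ ψ(N)` (the abstract tower bound
  of S28/H50 instantiated over `ℚ̄` instead of `ℂ`);
* `modularFunctionFieldBar N = modularFunctionFieldFullC ℚ̄ N`;
* characteristic `ℓ`: `ψ(N) ≤ [k(j̄(q^d)) : k(j̄(q^N))]` for the residue field `k` of `A`.
-/
import Mathlib
import Fermat.Agent.S28.H50.Upper
import Fermat.Agent.S28.H50.Psi
import Fermat.Agent.S28.H53.Final
import Fermat.Agent.S28.H23.HasModPolys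
import Fermat.Agent.S28.H66.IndepModL
import Fermat.Agent.S18.H66.ResField
import Fermat.Prelude.Def_ModularCurve_ArithmeticGalois

set_option autoImplicit false

noncomputable section

namespace Fermat.Agent.S18.H66

open ModularCurve Polynomial IntermediateField Fermat.Agent.S28 Fermat.Agent.S28.H50

/-- The factorised modular equations over any field with enough roots of unity. -/
theorem modEqHyp_field (R : Type) [Field R] (ζ : ℕ → Rˣ)
    (hζ : ∀ p : ℕ, p.Prime → IsPrimitiveRoot (ζ p) p)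
    (hmod : ∀ p : ℕ, p.Prime → ∃ Φ : Polynomial (Polynomial ℤ), IsModPoly p Φ) :
    ModEqHyp (fun d => jS R 1 d) (fun p m b => jS R (ζ p ^ b) m) where
  fact := by
    intro p m hp hm
    obtain ⟨Φ, hΦ⟩ := hmod p hp
    refine ⟨Φ, hΦ.monic, hΦ.natDegree_eq, ?_⟩
    have h := hΦ.fact_qSub hp R (ζ p) (hζ p hp) 1 m hm.ne'
    simp only [one_pow, mul_one] at h
    rw [show m * p = p * m by ring, show m * (p * p) = p * p * m by ring] at h
    exact h
  y_zero := by
    intro p m
    simp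
  ne_sq := by
    intro p r m hp hr hpr hm
    have hp0 := hp.pos
    have hr0 := hr.pos
    rcases Nat.lt_or_gt_of_ne hpr with h | h
    · refine jS_ne_of_lt 1 1 (by positivity) ?_
      exact Nat.mul_lt_mul_of_pos_right (Nat.mul_self_lt_mul_self h) hm
    · refine (jS_ne_of_lt 1 1 (by positivity) ?_).symm
      exact Nat.mul_lt_mul_of_pos_right (Nat.mul_self_lt_mul_self h) hm
  ne_y := by
    intro p r m b hp hr hm hb
    refine (jS_ne_of_lt _ _ hm.ne' ?_).symm
    have h2 := hp.two_le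
    have h1 : 1 < p * p := by nlinarith
    calc m = 1 * m := (one_mul m).symm
      _ < p * p * m := Nat.mul_lt_mul_of_pos_right h1 hm
  y_inj := by
    intro p r m b c hp hr hpr hm hb hc heq
    have h1 := jS_coeff_neg (ζ p ^ b) m hm.ne'
    have h2 := jS_coeff_neg (ζ r ^ c) m hm.ne'
    have heq' : jS R (ζ p ^ b) m = jS R (ζ r ^ c) m := heq
    rw [heq', h2] at h1
    have h3 : ζ r ^ c = ζ p ^ b := inv_injective (Units.ext h1)
    have hup : (ζ p ^ b) ^ p = 1 := by
      rw [← pow_mul, mul_comm, pow_mul, (hζ p hp).pow_eq_one, one_pow]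
    have hur : (ζ p ^ b) ^ r = 1 := by
      rw [← h3, ← pow_mul, mul_comm, pow_mul, (hζ r hr).pow_eq_one, one_pow]
    have hcop : Nat.gcd p r = 1 := (Nat.coprime_primes hp hr).mpr hpr
    have hu1 : ζ p ^ b = 1 := by
      have hd : orderOf (ζ p ^ b) ∣ Nat.gcd p r :=
        Nat.dvd_gcd (orderOf_dvd_of_pow_eq_one hup) (orderOf_dvd_of_pow_eq_one hur)
      rw [hcop] at hd
      exact orderOf_eq_one_iff.mp (Nat.dvd_one.mp hd)
    have hdvd : p ∣ b := ((hζ p hp).pow_eq_one_iff_dvd b).mp hu1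
    exact Nat.eq_zero_of_dvd_of_lt hdvd hb

/-- `ℚ̄`. -/
abbrev Kb : Type := AlgebraicClosure ℚ

theorem exists_zetaB (p : ℕ) (hp : p.Prime) : ∃ ζ : Kbˣ, IsPrimitiveRoot ζ p := by
  have : NeZero (p : Kb) := ⟨by exact_mod_cast hp.ne_zero⟩
  obtain ⟨ζ, hζ⟩ := HasEnoughRootsOfUnity.exists_primitiveRoot Kb p
  exact ⟨(hζ.isUnit hp.ne_zero).unit, IsPrimitiveRoot.coe_units_iff.mp (by simpa using hζ)⟩

open Classical in
/-- A choice of primitive `p`-th roots of unity in `ℚ̄ˣ`. -/
def zetaB (p : ℕ) : Kbˣ := if hp : p.Prime then (exists_zetaB p hp).choose else 1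

theorem zetaB_isPrimitiveRoot (p : ℕ) (hp : p.Prime) : IsPrimitiveRoot (zetaB p) p := by
  rw [zetaB, dif_pos hp]
  exact (exists_zetaB p hp).choose_spec

theorem towerHyp_bar : TowerHyp Kb (fun d => jS Kb 1 d) :=
  (modEqHyp_field Kb zetaB zetaB_isPrimitiveRoot H23.hasModPolys).towerHyp

/-- **Characteristic 0, over `ℚ̄`**: `[ℚ̄(j(q^d) : d ∣ N) : ℚ̄(j(q^N))] ≤ ψ(N)`. -/
theorem relrank_fullC_bar_le (N : ℕ) [NeZero N] :
    relrank (adjoin Kb {jqNModC Kb N}) (modularFunctionFieldFullC Kb N) ≤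
      (dedekindPsi N : Cardinal) := by
  have h := relrank_adjoin_divisors_le towerHyp_bar (NeZero.ne N)
  rw [H50.prod_primeFactors_eq_dedekindPsi N (NeZero.ne N)] at h
  have h1 : (fun d => jS Kb 1 d) '' {d | d ∣ N} =
      {x : LaurentSeries Kb | ∃ d, d ∣ N ∧ x = jS Kb 1 d} := by
    ext x
    constructor
    · rintro ⟨d, hd, rfl⟩
      exact ⟨d, hd, rfl⟩
    · rintro ⟨d, hd, rfl⟩
      exact ⟨d, hd, rfl⟩
  rw [h1, H53.adjoin_setOf_jS_eq_full Kb N (NeZero.ne N)] at h
  have h2 : jS Kb 1 N = jqNModC Kb N := jS_one_eq_jqNModC N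
  simp only [h2] at h
  exact h

theorem coeffEmb_qExpand_jq (d : ℕ) [NeZero d] :
    coeffEmb Kb (qExpand ℚ d jq) = qExpand Kb d (jqModC Kb) :=
  coeffMap_jqNModC (algebraMap ℚ Kb) d

theorem coeffEmb_mem_fullC (N : ℕ) [NeZero N] {x : LaurentSeries ℚ}
    (hx : x ∈ modularFunctionFieldFull N) :
    coeffEmb Kb x ∈ modularFunctionFieldFullC Kb N := by
  unfold modularFunctionFieldFull at hx
  induction hx using IntermediateField.adjoin_induction with
  | mem y hy =>
    obtain ⟨d, hd, hdN, rfl⟩ := hy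
    rw [coeffEmb_qExpand_jq d]
    exact jqModCd_mem_full Kb N hdN
  | algebraMap c =>
    have h : coeffEmb Kb (algebraMap ℚ (LaurentSeries ℚ) c) =
        algebraMap Kb (LaurentSeries Kb) (algebraMap ℚ Kb c) := by
      rw [algebraMap_laurentSeries_eq_single, algebraMap_laurentSeries_eq_single, coeffEmb,
        coeffMap_single]
    rw [h]
    exact IntermediateField.algebraMap_mem _ _
  | add y z _ _ hy hz => rw [map_add]; exact add_mem hy hz
  | inv y _ hy => rw [map_inv₀]; exact inv_mem hy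
  | mul y z _ _ hy hz => rw [map_mul]; exact mul_mem hy hz

/-- `modularFunctionFieldBar N` is the field generated over `ℚ̄` by the `j(q^d)`, `d ∣ N`. -/
theorem modularFunctionFieldBar_eq_fullC (N : ℕ) [NeZero N] :
    modularFunctionFieldBar N = modularFunctionFieldFullC Kb N := by
  apply le_antisymm
  · unfold modularFunctionFieldBar laurentBaseChange
    rw [adjoin_le_iff]
    rintro _ ⟨x, hx, rfl⟩
    exact coeffEmb_mem_fullC N hx
  · unfold modularFunctionFieldFullC
    rw [adjoin_le_iff]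
    rintro _ ⟨d, hd, hdN, rfl⟩
    rw [← coeffEmb_qExpand_jq d]
    exact coeffEmb_mem_laurentBaseChange Kb (jqd_mem_full N hdN)

section CharL

variable (A : ValuationSubring Kb) {ℓ : ℕ} [Fact ℓ.Prime]

/-- **Characteristic `ℓ`, over the residue field of `A`**:
`ψ(N) ≤ [k(j̄(q^d) : d ∣ N) : k(j̄(q^N))]`. -/
theorem dedekindPsi_le_relfinrank_res (hA : A.LiesOverPrime ℓ) (N : ℕ) [NeZero N]
    (hℓN : ¬ ℓ ∣ N) :
    dedekindPsi N ≤ relfinrank
      (adjoin (IsLocalRing.ResidueField A) {jqNModC (IsLocalRing.ResidueField A) N})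
      (modularFunctionFieldFullC (IsLocalRing.ResidueField A) N) := by
  have : CharP (IsLocalRing.ResidueField A) ℓ := charP_residueField A hA
  have h := dedekindPsi_le_relfinrank_algClosed H23.hasModPolys (IsLocalRing.ResidueField A) ℓ N
    (NeZero.ne N) hℓN
  rw [H53.adjoin_setOf_jS_eq_full _ N (NeZero.ne N)] at h
  have h2 : jS (IsLocalRing.ResidueField A) 1 N = jqNModC (IsLocalRing.ResidueField A) N :=
    jS_one_eq_jqNModC N
  rw [h2] at h
  exact h

end CharL

end Fermat.Agent.S18.H66
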