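/-
S18 / package GaussRing (helper66): Laurent series with coefficients in a valuation subring `A`
of a field `K`: inclusion into `K((q))`, coefficientwise reduction to `k((q))`, and the
"Gauss ring" of an intermediate field `F ≤ K((q))` all of whose nonzero elements can be scaled
to a quotient of two `A`-integral series with nonzero reductions.
-/
import Mathlib
import Fermat.Prelude.Def_ModularCurve_LaurentCoeff

set_option autoImplicit false

noncomputable section

namespace Fermat.Agent.S18.H66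

open ModularCurve HahnSeries

section Basic

variable {K : Type*} [Field K] (A : ValuationSubring K)

/-- Inclusion `A((q)) → K((q))`. -/
abbrev incl : LaurentSeries A →+* LaurentSeries K := coeffMap A.subtype

/-- Coefficientwise reduction `A((q)) → k((q))`. -/
abbrev redA : LaurentSeries A →+* LaurentSeries (IsLocalRing.ResidueField A) :=
  coeffMap (IsLocalRing.residue A)

theorem incl_injective : Function.Injective (incl A) := by
  intro x y h
  ext n
  have := congrArg (fun z => z.coeff n) h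
  simpa using this

theorem incl_eq_zero_iff {y : LaurentSeries A} : incl A y = 0 ↔ y = 0 := by
  rw [← map_zero (incl A)]
  exact (incl_injective A).eq_iff

theorem coeffMap_C {R S : Type*} [CommRing R] [CommRing S] (f : R →+* S) (a : R) :
    coeffMap f (HahnSeries.C a : LaurentSeries R) = HahnSeries.C (f a) := by
  rw [HahnSeries.C_apply, HahnSeries.C_apply, coeffMap_single]

theorem C_eq_algebraMap (d : K) :
    (HahnSeries.C d : LaurentSeries K) = algebraMap K (LaurentSeries K) d := by
  rw [algebraMap_laurentSeries_eq_single, HahnSeries.C_apply]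

theorem C_mem (F : IntermediateField K (LaurentSeries K)) (d : K) :
    (HahnSeries.C d : LaurentSeries K) ∈ F := by
  rw [C_eq_algebraMap]
  exact F.algebraMap_mem d

theorem incl_C_mul (a : A) (y : LaurentSeries A) :
    incl A (HahnSeries.C a * y) = HahnSeries.C (a : K) * incl A y := by
  rw [map_mul, coeffMap_C]
  rfl

theorem redA_C_mul (a : A) (y : LaurentSeries A) :
    redA A (HahnSeries.C a * y) = HahnSeries.C (IsLocalRing.residue A a) * redA A y := by
  rw [map_mul, coeffMap_C]

theorem redA_C_mul_of_nonunit {a : A} (ha : ¬ IsUnit a) (y : LaurentSeries A) :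
    redA A (HahnSeries.C a * y) = 0 := by
  rw [redA_C_mul, (IsLocalRing.residue_eq_zero_iff a).mpr ((IsLocalRing.mem_maximalIdeal a).mpr ha),
    map_zero, zero_mul]

end Basic

end Fermat.Agent.S18.H66

namespace Fermat.Agent.S18.H66

open ModularCurve HahnSeries

section Gauss

variable {K : Type*} [Field K] (A : ValuationSubring K)
  (F : IntermediateField K (LaurentSeries K))

/-- **Scaling hypothesis**: every nonzero element of `F` is, up to a nonzero constant, a quotient
of two `A`-integral series with nonzero reductions lying in `Fk`, the denominator in `F`. -/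
def HScale (Fk : Set (LaurentSeries (IsLocalRing.ResidueField A))) : Prop :=
  ∀ f : LaurentSeries K, f ∈ F → f ≠ 0 → ∃ d : K, d ≠ 0 ∧ ∃ y₁ y₂ : LaurentSeries A,
    redA A y₁ ≠ 0 ∧ redA A y₂ ≠ 0 ∧ redA A y₁ ∈ Fk ∧ redA A y₂ ∈ Fk ∧
      incl A y₂ ∈ F ∧ f * incl A y₂ = HahnSeries.C d * incl A y₁

/-- Membership predicate of the Gauss ring: `f = Y₁ / Y₂` with `Y₁, Y₂ ∈ A((q))`, `Y₂ ∈ F`,
`Ȳ₂ ≠ 0`. -/
def IsGaussInt (f : LaurentSeries K) : Prop :=
  ∃ y₁ y₂ : LaurentSeries A, redA A y₂ ≠ 0 ∧ incl A y₂ ∈ F ∧ f * incl A y₂ = incl A y₁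

variable {A F}

theorem isGaussInt_zero : IsGaussInt A F 0 :=
  ⟨0, 1, by rw [map_one]; exact one_ne_zero, by rw [map_one]; exact one_mem F, by simp⟩

theorem isGaussInt_one : IsGaussInt A F 1 :=
  ⟨1, 1, by rw [map_one]; exact one_ne_zero, by rw [map_one]; exact one_mem F, by simp⟩

theorem IsGaussInt.add {f g : LaurentSeries K} (hf : IsGaussInt A F f) (hg : IsGaussInt A F g) :
    IsGaussInt A F (f + g) := by
  obtain ⟨y₁, y₂, hy, hyF, hfy⟩ := hf
  obtain ⟨z₁, z₂, hz, hzF, hgz⟩ := hg
  refine ⟨y₁ * z₂ + z₁ * y₂, y₂ * z₂, ?_, ?_, ?_⟩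
  · rw [map_mul]; exact mul_ne_zero hy hz
  · rw [map_mul]; exact mul_mem hyF hzF
  · rw [map_mul, map_add, map_mul, map_mul, ← hfy, ← hgz]; ring

theorem IsGaussInt.mul {f g : LaurentSeries K} (hf : IsGaussInt A F f) (hg : IsGaussInt A F g) :
    IsGaussInt A F (f * g) := by
  obtain ⟨y₁, y₂, hy, hyF, hfy⟩ := hf
  obtain ⟨z₁, z₂, hz, hzF, hgz⟩ := hg
  refine ⟨y₁ * z₁, y₂ * z₂, ?_, ?_, ?_⟩
  · rw [map_mul]; exact mul_ne_zero hy hz
  · rw [map_mul]; exact mul_mem hyF hzF
  · rw [map_mul, map_mul, ← hfy, ← hgz]; ring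

theorem IsGaussInt.neg {f : LaurentSeries K} (hf : IsGaussInt A F f) : IsGaussInt A F (-f) := by
  obtain ⟨y₁, y₂, hy, hyF, hfy⟩ := hf
  exact ⟨-y₁, y₂, hy, hyF, by rw [map_neg, ← hfy]; ring⟩

/-- An `A`-integral series lying in `F` is Gauss-integral. -/
theorem isGaussInt_incl (y : LaurentSeries A) : IsGaussInt A F (incl A y) :=
  ⟨y, 1, by rw [map_one]; exact one_ne_zero, by rw [map_one]; exact one_mem F, by simp⟩

variable (A F)

/-- The Gauss ring as a subring of `F`. -/
def gaussSubring : Subring F where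
  carrier := {f | IsGaussInt A F (f : LaurentSeries K)}
  mul_mem' := fun {a b} ha hb => by
    show IsGaussInt A F ((a * b : F) : LaurentSeries K)
    exact ha.mul hb
  one_mem' := isGaussInt_one
  add_mem' := fun {a b} ha hb => by
    show IsGaussInt A F ((a + b : F) : LaurentSeries K)
    exact ha.add hb
  zero_mem' := isGaussInt_zero
  neg_mem' := fun {a} ha => by
    show IsGaussInt A F ((-a : F) : LaurentSeries K)
    exact ha.neg

variable {A F}

theorem isGaussInt_or_inv {Fk : Set (LaurentSeries (IsLocalRing.ResidueField A))}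
    (hS : HScale A F Fk) {f : LaurentSeries K} (hf : f ∈ F) :
    IsGaussInt A F f ∨ IsGaussInt A F f⁻¹ := by
  by_cases hf0 : f = 0
  · left; rw [hf0]; exact isGaussInt_zero
  obtain ⟨d, hd, y₁, y₂, hy₁, hy₂, -, -, hy₂F, hfy⟩ := hS f hf hf0
  have hy₂0 : incl A y₂ ≠ 0 := fun h => hy₂ (by rw [(incl_eq_zero_iff A).mp h, map_zero])
  have hy₁0 : incl A y₁ ≠ 0 := fun h => hy₁ (by rw [(incl_eq_zero_iff A).mp h, map_zero])
  rcases A.mem_or_inv_mem d with hdA | hdA
  · left
    refine ⟨HahnSeries.C (⟨d, hdA⟩ : A) * y₁, y₂, hy₂, hy₂F, ?_⟩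
    rw [incl_C_mul, hfy]
  · right
    have hCC : (HahnSeries.C d⁻¹ : LaurentSeries K) * HahnSeries.C d = 1 := by
      rw [← map_mul, inv_mul_cancel₀ hd, map_one]
    have h1 : incl A y₁ = HahnSeries.C d⁻¹ * (f * incl A y₂) := by
      rw [hfy, ← mul_assoc, hCC, one_mul]
    have hy₁F : incl A y₁ ∈ F := by
      rw [h1]
      exact mul_mem (C_mem F _) (mul_mem hf hy₂F)
    refine ⟨HahnSeries.C (⟨d⁻¹, hdA⟩ : A) * y₂, y₁, hy₁, hy₁F, ?_⟩
    rw [incl_C_mul]
    show f⁻¹ * incl A y₁ = HahnSeries.C d⁻¹ * incl A y₂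
    rw [inv_mul_eq_iff_eq_mul₀ hf0, h1]
    ring

variable (A F)

/-- **The Gauss valuation ring** of `F`. -/
def gaussRing {Fk : Set (LaurentSeries (IsLocalRing.ResidueField A))} (hS : HScale A F Fk) :
    ValuationSubring F where
  toSubring := gaussSubring A F
  mem_or_inv_mem' := fun f => by
    rcases isGaussInt_or_inv hS f.2 with h | h
    · exact Or.inl h
    · exact Or.inr (by
        show IsGaussInt A F ((f⁻¹ : F) : LaurentSeries K)
        exact h)

variable {A F}

theorem mem_gaussRing_iff {Fk : Set (LaurentSeries (IsLocalRing.ResidueField A))}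
    (hS : HScale A F Fk) (f : F) :
    f ∈ gaussRing A F hS ↔ IsGaussInt A F (f : LaurentSeries K) := Iff.rfl

end Gauss

end Fermat.Agent.S18.H66
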