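/-
S18 / package GaussRing (helper66): the residue map of the Gauss ring,
`f = Y₁ / Y₂ ↦ Ȳ₁ / Ȳ₂`, its kernel (the nonunits), constants, scaling, image.
-/
import Mathlib
import Fermat.Agent.S18.H66.QRed

set_option autoImplicit false

noncomputable section

namespace Fermat.Agent.S18.H66

open ModularCurve HahnSeries

section Res

variable {K : Type*} [Field K] {A : ValuationSubring K}
  {F : IntermediateField K (LaurentSeries K)}

/-- Two presentations of the same element have the same reduced quotient. -/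
theorem red_ratio_eq {f : LaurentSeries K} {y₁ y₂ z₁ z₂ : LaurentSeries A}
    (hy : redA A y₂ ≠ 0) (hz : redA A z₂ ≠ 0)
    (hfy : f * incl A y₂ = incl A y₁) (hfz : f * incl A z₂ = incl A z₁) :
    redA A y₁ / redA A y₂ = redA A z₁ / redA A z₂ := by
  have h : y₁ * z₂ = z₁ * y₂ := incl_injective A (by
    rw [map_mul, map_mul, ← hfy, ← hfz]; ring)
  have h' := congrArg (redA A) h
  rw [map_mul, map_mul] at h'
  rw [div_eq_div_iff hy hz]
  exact h'

variable (A F) in
open Classical in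
/-- The residue map on Gauss-integral elements (junk value `0` elsewhere). -/
def gaussRes (f : LaurentSeries K) : LaurentSeries (IsLocalRing.ResidueField A) :=
  if h : IsGaussInt A F f then redA A h.choose / redA A h.choose_spec.choose else 0

theorem gaussRes_eq {f : LaurentSeries K} {y₁ y₂ : LaurentSeries A}
    (hy : redA A y₂ ≠ 0) (hyF : incl A y₂ ∈ F) (hfy : f * incl A y₂ = incl A y₁) :
    gaussRes A F f = redA A y₁ / redA A y₂ := by
  have h : IsGaussInt A F f := ⟨y₁, y₂, hy, hyF, hfy⟩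
  rw [gaussRes, dif_pos h]
  exact red_ratio_eq h.choose_spec.choose_spec.1 hy h.choose_spec.choose_spec.2.2 hfy

theorem gaussRes_incl (y : LaurentSeries A) : gaussRes A F (incl A y) = redA A y := by
  have h := gaussRes_eq (F := F) (f := incl A y) (y₁ := y) (y₂ := 1)
    (by rw [map_one]; exact one_ne_zero) (by rw [map_one]; exact one_mem F) (by simp)
  rw [h, map_one, div_one]

theorem gaussRes_zero : gaussRes A F 0 = 0 := by
  have h := gaussRes_incl (F := F) (0 : LaurentSeries A)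
  rwa [map_zero, map_zero] at h

theorem gaussRes_one : gaussRes A F 1 = 1 := by
  have h := gaussRes_incl (F := F) (1 : LaurentSeries A)
  rwa [map_one, map_one] at h

theorem gaussRes_add {f g : LaurentSeries K} (hf : IsGaussInt A F f) (hg : IsGaussInt A F g) :
    gaussRes A F (f + g) = gaussRes A F f + gaussRes A F g := by
  obtain ⟨y₁, y₂, hy, hyF, hfy⟩ := hf
  obtain ⟨z₁, z₂, hz, hzF, hgz⟩ := hg
  rw [gaussRes_eq hy hyF hfy, gaussRes_eq hz hzF hgz,
    gaussRes_eq (F := F) (f := f + g) (y₁ := y₁ * z₂ + z₁ * y₂) (y₂ := y₂ * z₂)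
      (by rw [map_mul]; exact mul_ne_zero hy hz) (by rw [map_mul]; exact mul_mem hyF hzF)
      (by rw [map_mul, map_add, map_mul, map_mul, ← hfy, ← hgz]; ring)]
  rw [map_add, map_mul, map_mul, map_mul, div_add_div _ _ hy hz, mul_comm (redA A z₁)]

theorem gaussRes_mul {f g : LaurentSeries K} (hf : IsGaussInt A F f) (hg : IsGaussInt A F g) :
    gaussRes A F (f * g) = gaussRes A F f * gaussRes A F g := by
  obtain ⟨y₁, y₂, hy, hyF, hfy⟩ := hf
  obtain ⟨z₁, z₂, hz, hzF, hgz⟩ := hg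
  rw [gaussRes_eq hy hyF hfy, gaussRes_eq hz hzF hgz,
    gaussRes_eq (F := F) (f := f * g) (y₁ := y₁ * z₁) (y₂ := y₂ * z₂)
      (by rw [map_mul]; exact mul_ne_zero hy hz) (by rw [map_mul]; exact mul_mem hyF hzF)
      (by rw [map_mul, map_mul, ← hfy, ← hgz]; ring)]
  rw [map_mul, map_mul, div_mul_div_comm]

/-- The residue of a Gauss-integral element vanishes iff its numerator reduces to `0`. -/
theorem gaussRes_eq_zero_iff {f : LaurentSeries K} {y₁ y₂ : LaurentSeries A}
    (hy : redA A y₂ ≠ 0) (hyF : incl A y₂ ∈ F) (hfy : f * incl A y₂ = incl A y₁) :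
    gaussRes A F f = 0 ↔ redA A y₁ = 0 := by
  rw [gaussRes_eq hy hyF hfy, div_eq_zero_iff]
  exact ⟨fun h => h.resolve_right hy, Or.inl⟩

/-- If the residue is nonzero, the inverse is Gauss-integral, with inverse residue. -/
theorem isGaussInt_inv_of_gaussRes_ne_zero {f : LaurentSeries K} (hfF : f ∈ F)
    (hf : IsGaussInt A F f) (h0 : gaussRes A F f ≠ 0) :
    IsGaussInt A F f⁻¹ ∧ gaussRes A F f⁻¹ = (gaussRes A F f)⁻¹ := by
  obtain ⟨y₁, y₂, hy, hyF, hfy⟩ := hf
  have hy₁ : redA A y₁ ≠ 0 := fun h => h0 ((gaussRes_eq_zero_iff hy hyF hfy).mpr h)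
  have hy₁F : incl A y₁ ∈ F := by rw [← hfy]; exact mul_mem hfF hyF
  have hf0 : f ≠ 0 := by
    rintro rfl
    rw [zero_mul] at hfy
    exact hy₁ (by rw [(incl_eq_zero_iff A).mp hfy.symm, map_zero])
  have hinv : f⁻¹ * incl A y₁ = incl A y₂ := by
    rw [inv_mul_eq_iff_eq_mul₀ hf0, hfy]
  refine ⟨⟨y₂, y₁, hy₁, hy₁F, hinv⟩, ?_⟩
  rw [gaussRes_eq hy₁ hy₁F hinv, gaussRes_eq hy hyF hfy, inv_div]

/-- If the residue vanishes, the inverse is not Gauss-integral. -/
theorem not_isGaussInt_inv_of_gaussRes_eq_zero {f : LaurentSeries K}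
    (hf : IsGaussInt A F f) (h0 : gaussRes A F f = 0) (hf0 : f ≠ 0) :
    ¬ IsGaussInt A F f⁻¹ := by
  obtain ⟨y₁, y₂, hy, hyF, hfy⟩ := hf
  have hy₁ : redA A y₁ = 0 := (gaussRes_eq_zero_iff hy hyF hfy).mp h0
  rintro ⟨z₁, z₂, hz, hzF, hgz⟩
  have h : y₁ * z₁ = y₂ * z₂ := incl_injective A (by
    rw [map_mul, map_mul, ← hfy, ← hgz]
    field_simp)
  have h' := congrArg (redA A) h
  rw [map_mul, map_mul, hy₁, zero_mul] at h'
  exact mul_ne_zero hy hz h'.symm

end Res

end Fermat.Agent.S18.H66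

namespace Fermat.Agent.S18.H66

open ModularCurve HahnSeries

section Hom

variable {K : Type*} [Field K] {A : ValuationSubring K}
  {F : IntermediateField K (LaurentSeries K)}
  {Fk : Set (LaurentSeries (IsLocalRing.ResidueField A))}

/-- If `a ∉ A` then `a⁻¹` is a nonunit of `A`. -/
theorem not_isUnit_inv_of_not_mem {a : K} (haA : a ∉ A) (hinv : a⁻¹ ∈ A) :
    ¬ IsUnit (⟨a⁻¹, hinv⟩ : A) := by
  intro hu
  obtain ⟨b, hb⟩ := hu.exists_right_inv
  have hb' : a⁻¹ * (b : K) = 1 := by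
    have := congrArg (fun x : A => (x : K)) hb
    simpa using this
  have ha0 : a ≠ 0 := fun h => haA (h ▸ A.zero_mem)
  have : (b : K) = a := by
    rw [inv_mul_eq_iff_eq_mul₀ ha0, mul_one] at hb'
    exact hb'
  exact haA (this ▸ b.2)

/-- The residue homomorphism of the Gauss ring. -/
def gaussResHom (hS : HScale A F Fk) :
    gaussRing A F hS →+* LaurentSeries (IsLocalRing.ResidueField A) where
  toFun f := gaussRes A F ((f : F) : LaurentSeries K)
  map_one' := gaussRes_one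
  map_mul' f g := gaussRes_mul f.2 g.2
  map_zero' := gaussRes_zero
  map_add' f g := gaussRes_add f.2 g.2

theorem gaussResHom_apply (hS : HScale A F Fk) (f : gaussRing A F hS) :
    gaussResHom hS f = gaussRes A F ((f : F) : LaurentSeries K) := rfl

/-- The kernel of the residue homomorphism is the maximal ideal. -/
theorem gaussResHom_eq_zero_iff (hS : HScale A F Fk) (f : gaussRing A F hS) :
    gaussResHom hS f = 0 ↔ ¬ IsUnit f := by
  constructor
  · intro h0 hu
    obtain ⟨g, hg⟩ := hu.exists_right_inv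
    have hf0 : ((f : F) : LaurentSeries K) ≠ 0 := by
      intro h
      have h1 : (f : F) = 0 := Subtype.ext h
      have h2 : f = 0 := Subtype.ext h1
      rw [h2, zero_mul] at hg
      exact zero_ne_one hg
    have hfg : ((f : F) : LaurentSeries K) * ((g : F) : LaurentSeries K) = 1 := by
      have := congrArg (fun x : gaussRing A F hS => ((x : F) : LaurentSeries K)) hg
      simpa using this
    have hg' : ((g : F) : LaurentSeries K) = ((f : F) : LaurentSeries K)⁻¹ :=
      eq_inv_of_mul_eq_one_right hfg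
    refine not_isGaussInt_inv_of_gaussRes_eq_zero f.2 h0 hf0 ?_
    rw [← hg']
    exact g.2
  · intro hu
    by_contra h0
    obtain ⟨hinv, -⟩ := isGaussInt_inv_of_gaussRes_ne_zero (f : F).2 f.2 h0
    have hmem : ((f : F)⁻¹ : F) ∈ gaussRing A F hS := by
      show IsGaussInt A F (((f : F)⁻¹ : F) : LaurentSeries K)
      exact hinv
    have hf0 : (f : F) ≠ 0 := by
      intro h
      apply h0
      rw [gaussResHom_apply, h]
      exact gaussRes_zero
    refine hu (isUnit_iff_exists_inv.mpr ⟨⟨(f : F)⁻¹, hmem⟩, ?_⟩)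
    apply Subtype.ext
    show (f : F) * (f : F)⁻¹ = 1
    exact mul_inv_cancel₀ hf0

/-- Membership in the nonunits of the Gauss ring, in terms of presentations. -/
theorem mem_nonunits_gaussRing_iff (hS : HScale A F Fk) (f : F) :
    f ∈ (gaussRing A F hS).nonunits ↔
      ∃ y₁ y₂ : LaurentSeries A, redA A y₁ = 0 ∧ redA A y₂ ≠ 0 ∧ incl A y₂ ∈ F ∧
        (f : LaurentSeries K) * incl A y₂ = incl A y₁ := by
  rw [ValuationSubring.mem_nonunits_iff_exists_mem_maximalIdeal]
  constructor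
  · rintro ⟨hf, hm⟩
    obtain ⟨y₁, y₂, hy, hyF, hfy⟩ := hf
    have h0 : gaussResHom hS ⟨f, ⟨y₁, y₂, hy, hyF, hfy⟩⟩ = 0 :=
      (gaussResHom_eq_zero_iff hS _).mpr ((IsLocalRing.mem_maximalIdeal _).mp hm)
    exact ⟨y₁, y₂, (gaussRes_eq_zero_iff hy hyF hfy).mp h0, hy, hyF, hfy⟩
  · rintro ⟨y₁, y₂, hy₁, hy, hyF, hfy⟩
    have hf : f ∈ gaussRing A F hS := ⟨y₁, y₂, hy, hyF, hfy⟩
    refine ⟨hf, (IsLocalRing.mem_maximalIdeal _).mpr ((gaussResHom_eq_zero_iff hS ⟨f, hf⟩).mp ?_)⟩
    exact (gaussRes_eq_zero_iff hy hyF hfy).mpr hy₁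

/-- `O ∩ K = A`. -/
theorem algebraMap_mem_gaussRing_iff (hS : HScale A F Fk) (a : K) :
    algebraMap K F a ∈ gaussRing A F hS ↔ a ∈ A := by
  have hcoe : ((algebraMap K F a : F) : LaurentSeries K) = HahnSeries.C a := by
    rw [C_eq_algebraMap]; rfl
  constructor
  · rintro ⟨y₁, y₂, hy, hyF, hfy⟩
    rw [hcoe] at hfy
    by_contra haA
    have ha0 : a ≠ 0 := fun h => haA (h ▸ A.zero_mem)
    have hinv : a⁻¹ ∈ A := (A.mem_or_inv_mem a).resolve_left haA
    have hnu : ¬ IsUnit (⟨a⁻¹, hinv⟩ : A) := not_isUnit_inv_of_not_mem haA hinv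
    have h1 : y₂ = HahnSeries.C (⟨a⁻¹, hinv⟩ : A) * y₁ := by
      apply incl_injective A
      rw [incl_C_mul, ← hfy, ← mul_assoc, ← map_mul]
      show incl A y₂ = HahnSeries.C (a⁻¹ * a) * incl A y₂
      rw [inv_mul_cancel₀ ha0, map_one, one_mul]
    apply hy
    rw [h1]
    exact redA_C_mul_of_nonunit A hnu y₁
  · intro ha
    refine ⟨HahnSeries.C (⟨a, ha⟩ : A), 1, by rw [map_one]; exact one_ne_zero,
      by rw [map_one]; exact one_mem F, ?_⟩
    rw [hcoe, map_one, mul_one, coeffMap_C]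
    rfl

/-- The value group of the Gauss ring is that of `A`: every nonzero element is a constant times
a unit. -/
theorem exists_scale (hS : HScale A F Fk) (f : F) (hf : f ≠ 0) :
    ∃ c : K, c ≠ 0 ∧ algebraMap K F c * f ∈ gaussRing A F hS ∧
      (algebraMap K F c * f)⁻¹ ∈ gaussRing A F hS := by
  have hf0 : (f : LaurentSeries K) ≠ 0 := fun h => hf (Subtype.ext h)
  obtain ⟨d, hd, y₁, y₂, hy₁, hy₂, -, -, hy₂F, hfy⟩ := hS f f.2 hf0
  have hCC : (HahnSeries.C d⁻¹ : LaurentSeries K) * HahnSeries.C d = 1 := by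
    rw [← map_mul, inv_mul_cancel₀ hd, map_one]
  have h1 : HahnSeries.C d⁻¹ * (f : LaurentSeries K) * incl A y₂ = incl A y₁ := by
    rw [mul_assoc, hfy, ← mul_assoc, hCC, one_mul]
  have hy₁F : incl A y₁ ∈ F := by
    rw [← h1]
    exact mul_mem (mul_mem (C_mem F _) f.2) hy₂F
  have hcoe : ((algebraMap K F d⁻¹ * f : F) : LaurentSeries K) =
      HahnSeries.C d⁻¹ * (f : LaurentSeries K) := by
    rw [C_eq_algebraMap]; rfl
  have hne : HahnSeries.C d⁻¹ * (f : LaurentSeries K) ≠ 0 := by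
    intro h
    rw [h, zero_mul] at h1
    exact hy₁ (by rw [(incl_eq_zero_iff A).mp h1.symm, map_zero])
  refine ⟨d⁻¹, inv_ne_zero hd, ⟨y₁, y₂, hy₂, hy₂F, by rw [hcoe]; exact h1⟩,
    ⟨y₂, y₁, hy₁, hy₁F, ?_⟩⟩
  show ((algebraMap K F d⁻¹ * f : F) : LaurentSeries K)⁻¹ * incl A y₁ = incl A y₂
  rw [hcoe, inv_mul_eq_iff_eq_mul₀ hne, h1]

end Hom

section Image

variable {K : Type*} [Field K] {A : ValuationSubring K}
  {F : IntermediateField K (LaurentSeries K)}
  {Fk : IntermediateField (IsLocalRing.ResidueField A)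
    (LaurentSeries (IsLocalRing.ResidueField A))}

/-- The residue of a Gauss-integral element of `F` lies in `Fk`. -/
theorem gaussRes_mem (hS : HScale A F (Fk : Set _)) {f : LaurentSeries K} (hfF : f ∈ F)
    (hf : IsGaussInt A F f) : gaussRes A F f ∈ Fk := by
  by_cases hf0 : f = 0
  · rw [hf0, gaussRes_zero]; exact zero_mem Fk
  obtain ⟨d, hd, y₁, y₂, hy₁, hy₂, hy₁k, hy₂k, hy₂F, hfy⟩ := hS f hfF hf0
  obtain ⟨z₁, z₂, hz, hzF, hfz⟩ := hf
  have hdA : d ∈ A := by
    by_contra hdA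
    have hinv : d⁻¹ ∈ A := (A.mem_or_inv_mem d).resolve_left hdA
    have hnu : ¬ IsUnit (⟨d⁻¹, hinv⟩ : A) := not_isUnit_inv_of_not_mem hdA hinv
    have h1 : y₁ * z₂ = HahnSeries.C (⟨d⁻¹, hinv⟩ : A) * (z₁ * y₂) := by
      apply incl_injective A
      rw [incl_C_mul, map_mul, map_mul, ← hfz]
      show incl A y₁ * incl A z₂ = HahnSeries.C d⁻¹ * (f * incl A z₂ * incl A y₂)
      have : f * incl A z₂ * incl A y₂ = (f * incl A y₂) * incl A z₂ := by ring
      have hCC : (HahnSeries.C d⁻¹ : LaurentSeries K) * HahnSeries.C d = 1 := by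
        rw [← map_mul, inv_mul_cancel₀ hd, map_one]
      rw [this, hfy, ← mul_assoc, ← mul_assoc, hCC, one_mul]
    have h2 := congrArg (redA A) h1
    rw [redA_C_mul_of_nonunit A hnu, map_mul] at h2
    exact mul_ne_zero hy₁ hz h2
  have hfy' : f * incl A y₂ = incl A (HahnSeries.C (⟨d, hdA⟩ : A) * y₁) := by
    rw [incl_C_mul]; exact hfy
  rw [gaussRes_eq hy₂ hy₂F hfy', redA_C_mul]
  refine div_mem (mul_mem ?_ hy₁k) hy₂k
  rw [C_eq_algebraMap]
  exact Fk.algebraMap_mem _

/-- **Reductions of integral elements of `F` lie in `Fk`.** -/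
theorem redA_mem_of_incl_mem (hS : HScale A F (Fk : Set _)) (y : LaurentSeries A)
    (hy : incl A y ∈ F) : redA A y ∈ Fk := by
  rw [← gaussRes_incl (F := F) y]
  exact gaussRes_mem hS hy (isGaussInt_incl y)

theorem gaussResHom_mem (hS : HScale A F (Fk : Set _)) (f : gaussRing A F hS) :
    gaussResHom hS f ∈ Fk :=
  gaussRes_mem hS (f : F).2 f.2

/-- The image of the residue homomorphism is closed under inverses. -/
theorem exists_gaussResHom_eq_inv (hS : HScale A F (Fk : Set _)) (f : gaussRing A F hS) :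
    ∃ g : gaussRing A F hS, gaussResHom hS g = (gaussResHom hS f)⁻¹ := by
  by_cases h0 : gaussResHom hS f = 0
  · exact ⟨0, by rw [h0, inv_zero, map_zero]⟩
  · obtain ⟨hinv, hres⟩ := isGaussInt_inv_of_gaussRes_ne_zero (f : F).2 f.2 h0
    have hmem : ((f : F)⁻¹ : F) ∈ gaussRing A F hS := by
      show IsGaussInt A F (((f : F)⁻¹ : F) : LaurentSeries K)
      exact hinv
    exact ⟨⟨(f : F)⁻¹, hmem⟩, hres⟩

/-- Constants are residues. -/
theorem exists_gaussResHom_eq_C (hS : HScale A F (Fk : Set _)) (c : IsLocalRing.ResidueField A) :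
    ∃ g : gaussRing A F hS, gaussResHom hS g = HahnSeries.C c := by
  obtain ⟨a, rfl⟩ := IsLocalRing.residue_surjective c
  have hmem : incl A (HahnSeries.C a) ∈ F := by
    rw [coeffMap_C]; exact C_mem F _
  refine ⟨⟨⟨incl A (HahnSeries.C a), hmem⟩, isGaussInt_incl _⟩, ?_⟩
  rw [gaussResHom_apply]
  show gaussRes A F (incl A (HahnSeries.C a)) = _
  rw [gaussRes_incl, coeffMap_C]

/-- If `Fk` is generated over `k` by reductions of integral elements of `F`, the residue
homomorphism maps onto `Fk`. -/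
theorem exists_gaussResHom_eq (hS : HScale A F (Fk : Set _))
    (T : Set (LaurentSeries (IsLocalRing.ResidueField A)))
    (hT : ∀ x ∈ T, ∃ y : LaurentSeries A, incl A y ∈ F ∧ redA A y = x)
    (hFk : Fk = IntermediateField.adjoin (IsLocalRing.ResidueField A) T)
    {x : LaurentSeries (IsLocalRing.ResidueField A)} (hx : x ∈ Fk) :
    ∃ g : gaussRing A F hS, gaussResHom hS g = x := by
  rw [hFk] at hx
  induction hx using IntermediateField.adjoin_induction with
  | mem x hx =>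
    obtain ⟨y, hyF, rfl⟩ := hT x hx
    refine ⟨⟨⟨incl A y, hyF⟩, isGaussInt_incl _⟩, ?_⟩
    rw [gaussResHom_apply]
    exact gaussRes_incl y
  | algebraMap c =>
    obtain ⟨g, hg⟩ := exists_gaussResHom_eq_C hS c
    exact ⟨g, by rw [hg, C_eq_algebraMap]⟩
  | add x y _ _ hx hy =>
    obtain ⟨g, rfl⟩ := hx
    obtain ⟨g', rfl⟩ := hy
    exact ⟨g + g', map_add _ _ _⟩
  | inv x _ hx =>
    obtain ⟨g, rfl⟩ := hx
    exact exists_gaussResHom_eq_inv hS g
  | mul x y _ _ hx hy =>
    obtain ⟨g, rfl⟩ := hx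
    obtain ⟨g', rfl⟩ := hy
    exact ⟨g * g', map_mul _ _ _⟩

end Image

end Fermat.Agent.S18.H66
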