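/-
S18 / package GaussRing (helper66): generic scaling lemmas over a valuation subring.
* simultaneous primitive scaling of a finite family of polynomials;
* clearing denominators in a simple transcendental extension inside `K((q))`.
-/
import Mathlib
import Fermat.Agent.S18.H66.QRed

set_option autoImplicit false

noncomputable section

namespace Fermat.Agent.S18.H66

open ModularCurve HahnSeries Polynomial

section Primitive

variable {K : Type*} [Field K] (A : ValuationSubring K)

/-- **Simultaneous primitive scaling**: a finite family of polynomials over `K`, not all zero,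
can be multiplied by one nonzero constant so that all coefficients lie in `A` and one of them
is `1`. -/
theorem exists_primitive_scale {ι : Type*} [Fintype ι] (P : ι → K[X]) (hP : ∃ i, P i ≠ 0) :
    ∃ c : K, c ≠ 0 ∧ ∃ P' : ι → A[X], (∀ i, (P' i).map A.subtype = C c * P i) ∧
      ∃ i, (P' i).map (IsLocalRing.residue A) ≠ 0 := by
  classical
  let s : Finset (Σ _ : ι, ℕ) := Finset.univ.sigma (fun i => (P i).support)
  have hs : s.Nonempty := by
    obtain ⟨i, hi⟩ := hP
    obtain ⟨n, hn⟩ := Polynomial.support_nonempty.mpr hi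
    exact ⟨⟨i, n⟩, Finset.mem_sigma.mpr ⟨Finset.mem_univ _, hn⟩⟩
  obtain ⟨⟨i₀, n₀⟩, h₀, hmax⟩ := Finset.exists_max_image s
    (fun x => A.valuation ((P x.1).coeff x.2)) hs
  have hc₀ : (P i₀).coeff n₀ ≠ 0 := Polynomial.mem_support_iff.mp (Finset.mem_sigma.mp h₀).2
  set c : K := ((P i₀).coeff n₀)⁻¹ with hc
  have hcA : ∀ i n, c * (P i).coeff n ∈ A := by
    intro i n
    by_cases h0 : (P i).coeff n = 0
    · rw [h0, mul_zero]; exact A.zero_mem
    · have hmem : (⟨i, n⟩ : Σ _ : ι, ℕ) ∈ s :=
        Finset.mem_sigma.mpr ⟨Finset.mem_univ _, Polynomial.mem_support_iff.mpr h0⟩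
      have hle := hmax ⟨i, n⟩ hmem
      rw [← A.valuation_le_one_iff, map_mul, hc, map_inv₀]
      have hv0 : A.valuation ((P i₀).coeff n₀) ≠ 0 := (Valuation.ne_zero_iff _).mpr hc₀
      rw [inv_mul_le_one₀ (zero_lt_iff.mpr hv0)]
      exact hle
  have hlift : ∀ i, (C c * P i) ∈ Polynomial.lifts A.subtype := by
    intro i
    rw [Polynomial.lifts_iff_coeff_lifts]
    intro n
    rw [Polynomial.coeff_C_mul]
    exact ⟨⟨_, hcA i n⟩, rfl⟩
  choose P' hP' using fun i => (Polynomial.mem_lifts _).mp (hlift i)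
  refine ⟨c, inv_ne_zero hc₀, P', hP', i₀, ?_⟩
  intro h0
  have h1 : ((P' i₀).map (IsLocalRing.residue A)).coeff n₀ = 0 := by rw [h0, Polynomial.coeff_zero]
  rw [Polynomial.coeff_map] at h1
  have h2 : ((P' i₀).coeff n₀ : K) = 1 := by
    have := congrArg (fun p => p.coeff n₀) (hP' i₀)
    simp only [Polynomial.coeff_map, Polynomial.coeff_C_mul] at this
    rw [show A.subtype ((P' i₀).coeff n₀) = ((P' i₀).coeff n₀ : K) from rfl] at this
    rw [this, hc, inv_mul_cancel₀ hc₀]
  have h3 : (P' i₀).coeff n₀ = 1 := Subtype.ext h2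
  rw [h3, map_one] at h1
  exact one_ne_zero h1

end Primitive

section Denominators

open IntermediateField

variable {K L : Type*} [Field K] [Field L] [Algebra K L]

/-- **Clearing denominators** in the simple extension `K(t)`. -/
theorem exists_common_denom (t : L) {n : ℕ} (g : Fin n → L) (hg : ∀ i, g i ∈ K⟮t⟯) :
    ∃ D : K[X], aeval t D ≠ 0 ∧ ∃ P : Fin n → K[X], ∀ i, g i * aeval t D = aeval t (P i) := by
  classical
  have h1 : ∀ i, ∃ r s : K[X], aeval t s ≠ 0 ∧ g i * aeval t s = aeval t r := by
    intro i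
    obtain ⟨r, s, hrs⟩ := (IntermediateField.mem_adjoin_simple_iff K (g i)).mp (hg i)
    by_cases hs : aeval t s = 0
    · refine ⟨0, 1, by simp, ?_⟩
      rw [hrs, hs, div_zero, zero_mul, map_zero]
    · exact ⟨r, s, hs, by rw [hrs, div_mul_cancel₀ _ hs]⟩
  choose r s hs hrs using h1
  refine ⟨∏ j, s j, ?_, fun i => r i * ∏ j ∈ Finset.univ.erase i, s j, fun i => ?_⟩
  · rw [map_prod]
    exact Finset.prod_ne_zero_iff.mpr fun j _ => hs j
  · rw [← Finset.mul_prod_erase Finset.univ s (Finset.mem_univ i), map_mul, map_mul, ← mul_assoc,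
      hrs i]

end Denominators

end Fermat.Agent.S18.H66
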