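/-
S18 / package GaussRing (helper66): the scaling hypothesis `HScale` for the modular function
field `ℚ̄(j(q^d) : d ∣ N)`, `ℓ ∤ N`, from the S28 degree (in)equalities: a monomial basis over
`ℚ̄(j(q^N))` whose reductions are linearly independent over `k(j̄(q^N))`.
-/
import Mathlib
import Fermat.Agent.S18.H66.Degree
import Fermat.Agent.S18.H66.GaussRes
import Fermat.Agent.S18.H66.Scale

set_option autoImplicit false

noncomputable section

namespace Fermat.Agent.S18.H66

open ModularCurve HahnSeries Polynomial IntermediateField Fermat.Agent.S28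

section Eval

variable {K : Type*} [Field K]

theorem algebraMap_eq_C : (algebraMap K (LaurentSeries K)) = (HahnSeries.C : K →+* LaurentSeries K) :=
  RingHom.ext fun d => (C_eq_algebraMap d).symm

theorem eval₂_C_eq_aeval (t : LaurentSeries K) (P : K[X]) :
    P.eval₂ HahnSeries.C t = aeval t P := by
  rw [aeval_def, algebraMap_eq_C]

theorem eval₂_C_mem_adjoin (t : LaurentSeries K) (P : K[X]) :
    P.eval₂ HahnSeries.C t ∈ K⟮t⟯ := by
  rw [eval₂_C_eq_aeval]
  exact IntermediateField.algebra_adjoin_le_adjoin K _ (Polynomial.aeval_mem_adjoin_singleton K t)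

end Eval

section Int

variable (A : ValuationSubring Kb) (N : ℕ) [NeZero N]

theorem incl_jqNModC : incl A (jqNModC A N) = jqNModC Kb N := coeffMap_jqNModC _ N

theorem redA_jqNModC :
    redA A (jqNModC A N) = jqNModC (IsLocalRing.ResidueField A) N := coeffMap_jqNModC _ N

/-- Evaluation at `j(q^N)` of a polynomial with coefficients in `A`. -/
def evA (P : A[X]) : LaurentSeries A := P.eval₂ HahnSeries.C (jqNModC A N)

theorem incl_evA (P : A[X]) :
    incl A (evA A N P) = (P.map A.subtype).eval₂ HahnSeries.C (jqNModC Kb N) := by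
  rw [evA, Polynomial.hom_eval₂, Polynomial.eval₂_map, incl_jqNModC]
  congr 1
  exact RingHom.ext fun a => coeffMap_C _ a

theorem redA_evA (P : A[X]) :
    redA A (evA A N P) = (P.map (IsLocalRing.residue A)).eval₂ HahnSeries.C
      (jqNModC (IsLocalRing.ResidueField A) N) := by
  rw [evA, Polynomial.hom_eval₂, Polynomial.eval₂_map, redA_jqNModC]
  congr 1
  exact RingHom.ext fun a => coeffMap_C _ a

/-- The image in `A((q))` of an integral series. -/
def monA (u : LaurentSeries ℤ) : LaurentSeries A := coeffMap (Int.castRingHom A) u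

theorem incl_monA (u : LaurentSeries ℤ) :
    incl A (monA A u) = coeffMap (Int.castRingHom Kb) u := by
  rw [monA, coeffMap_coeffMap]
  exact coeffMap_congr (RingHom.ext_int _ _) u

theorem redA_monA (u : LaurentSeries ℤ) :
    redA A (monA A u) = coeffMap (Int.castRingHom (IsLocalRing.ResidueField A)) u := by
  rw [monA, coeffMap_coeffMap]
  exact coeffMap_congr (RingHom.ext_int _ _) u

omit [NeZero N] in
/-- Monomials in the `j(q^d)` lie in the function field, over any field. -/
theorem coeffMap_mem_fullC (K' : Type*) [Field K'] {u : LaurentSeries ℤ}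
    (hu : u ∈ Submonoid.closure (H66.divisorExpansionsInt N)) :
    coeffMap (Int.castRingHom K') u ∈ modularFunctionFieldFullC K' N := by
  induction hu using Submonoid.closure_induction with
  | mem y hy =>
    obtain ⟨d, hd, hdN, rfl⟩ := hy
    have h : coeffMap (Int.castRingHom K') (qExpand ℤ d (jqModC ℤ)) = qExpand K' d (jqModC K') :=
      coeffMap_jqNModC (Int.castRingHom K') d
    rw [h]
    exact jqModCd_mem_full K' N hdN
  | one => rw [map_one]; exact one_mem _
  | mul y z _ _ hy hz => rw [map_mul]; exact mul_mem hy hz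

end Int

section Indep

variable (A : ValuationSubring Kb) (N : ℕ) [NeZero N] {n : ℕ} (u : Fin n → LaurentSeries ℤ)

/-- Polynomial form of the linear independence of the reduced monomials over `k(j̄(q^N))`. -/
theorem indepPoly_res
    (hli : LinearIndependent
      ↥(adjoin (IsLocalRing.ResidueField A) {jqNModC (IsLocalRing.ResidueField A) N})
      (fun i => coeffMap (Int.castRingHom (IsLocalRing.ResidueField A)) (u i)))
    (P : Fin n → (IsLocalRing.ResidueField A)[X])
    (h : ∑ i, (P i).eval₂ HahnSeries.C (jqNModC (IsLocalRing.ResidueField A) N) *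
      coeffMap (Int.castRingHom (IsLocalRing.ResidueField A)) (u i) = 0) :
    ∀ i, P i = 0 := by
  intro i
  have h1 := linearIndependent_iff'.mp hli Finset.univ
    (fun i => ⟨(P i).eval₂ HahnSeries.C (jqNModC (IsLocalRing.ResidueField A) N),
      eval₂_C_mem_adjoin _ _⟩) h i (Finset.mem_univ i)
  have h2 : (P i).eval₂ HahnSeries.C (jqNModC (IsLocalRing.ResidueField A) N) = 0 :=
    congrArg Subtype.val h1
  exact H66.eq_zero_of_eval₂_jqNModC_eq_zero _ N (P i) h2

/-- Polynomial form of the linear independence of the monomials over `ℚ̄(j(q^N))`. -/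
theorem indepPoly_bar
    (hli : LinearIndependent
      ↥(adjoin (IsLocalRing.ResidueField A) {jqNModC (IsLocalRing.ResidueField A) N})
      (fun i => coeffMap (Int.castRingHom (IsLocalRing.ResidueField A)) (u i)))
    (P : Fin n → Kb[X])
    (h : ∑ i, (P i).eval₂ HahnSeries.C (jqNModC Kb N) * coeffMap (Int.castRingHom Kb) (u i) = 0) :
    ∀ i, P i = 0 := by
  by_contra hne
  rw [not_forall] at hne
  obtain ⟨c, hc, P', hP', i₀, hi₀⟩ := exists_primitive_scale A P hne
  have hY : incl A (∑ i, evA A N (P' i) * monA A (u i)) = 0 := by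
    rw [map_sum]
    have : ∀ i, incl A (evA A N (P' i) * monA A (u i)) =
        HahnSeries.C c * ((P i).eval₂ HahnSeries.C (jqNModC Kb N) *
          coeffMap (Int.castRingHom Kb) (u i)) := by
      intro i
      rw [map_mul, incl_evA, incl_monA, hP', Polynomial.eval₂_mul, Polynomial.eval₂_C, mul_assoc]
    simp only [this]
    rw [← Finset.mul_sum, h, mul_zero]
  have hY0 := (incl_eq_zero_iff A).mp hY
  have hred := congrArg (redA A) hY0
  rw [map_zero, map_sum] at hred
  have hred' : ∑ i, ((P' i).map (IsLocalRing.residue A)).eval₂ HahnSeries.C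
      (jqNModC (IsLocalRing.ResidueField A) N) *
        coeffMap (Int.castRingHom (IsLocalRing.ResidueField A)) (u i) = 0 := by
    rw [← hred]
    refine Finset.sum_congr rfl fun i _ => ?_
    rw [map_mul, redA_evA, redA_monA]
  exact hi₀ (indepPoly_res A N u hli _ hred' i₀)

/-- The monomials are linearly independent over `ℚ̄(j(q^N))`. -/
theorem linearIndependent_bar
    (hli : LinearIndependent
      ↥(adjoin (IsLocalRing.ResidueField A) {jqNModC (IsLocalRing.ResidueField A) N})
      (fun i => coeffMap (Int.castRingHom (IsLocalRing.ResidueField A)) (u i))) :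
    LinearIndependent ↥(adjoin Kb {jqNModC Kb N})
      (fun i => coeffMap (Int.castRingHom Kb) (u i)) := by
  rw [Fintype.linearIndependent_iff]
  intro g hg i
  obtain ⟨D, hD, P, hP⟩ := exists_common_denom (K := Kb) (jqNModC Kb N)
    (fun i => ((g i : ↥(adjoin Kb {jqNModC Kb N})) : LaurentSeries Kb)) (fun i => (g i).2)
  have hg' : ∑ i, ((g i : ↥(adjoin Kb {jqNModC Kb N})) : LaurentSeries Kb) *
      coeffMap (Int.castRingHom Kb) (u i) = 0 := hg
  have h0 : ∑ i, (P i).eval₂ HahnSeries.C (jqNModC Kb N) *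
      coeffMap (Int.castRingHom Kb) (u i) = 0 := by
    have : ∀ i, (P i).eval₂ HahnSeries.C (jqNModC Kb N) * coeffMap (Int.castRingHom Kb) (u i) =
        aeval (jqNModC Kb N) D * (((g i : ↥(adjoin Kb {jqNModC Kb N})) : LaurentSeries Kb) *
          coeffMap (Int.castRingHom Kb) (u i)) := by
      intro i
      rw [eval₂_C_eq_aeval, ← hP i]; ring
    simp only [this]
    rw [← Finset.mul_sum, hg', mul_zero]
  have hPi := indepPoly_bar A N u hli P h0 i
  have h1 := hP i
  rw [hPi, map_zero] at h1
  have h2 : ((g i : ↥(adjoin Kb {jqNModC Kb N})) : LaurentSeries Kb) = 0 :=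
    (mul_eq_zero.mp h1).resolve_right hD
  exact Subtype.ext h2

/-- **Representation**: every element of `ℚ̄(j(q^d) : d ∣ N)` is a combination of the monomials
with coefficients in `ℚ̄(j(q^N))`, with a common denominator. -/
theorem exists_repr
    (hu : ∀ i, u i ∈ Submonoid.closure (H66.divisorExpansionsInt N))
    (hli : LinearIndependent
      ↥(adjoin (IsLocalRing.ResidueField A) {jqNModC (IsLocalRing.ResidueField A) N})
      (fun i => coeffMap (Int.castRingHom (IsLocalRing.ResidueField A)) (u i)))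
    (hn : dedekindPsi N ≤ n) {f : LaurentSeries Kb} (hf : f ∈ modularFunctionFieldFullC Kb N) :
    ∃ D : Kb[X], aeval (jqNModC Kb N) D ≠ 0 ∧ ∃ P : Fin n → Kb[X],
      f * aeval (jqNModC Kb N) D =
        ∑ i, aeval (jqNModC Kb N) (P i) * coeffMap (Int.castRingHom Kb) (u i) := by
  have hEF : adjoin Kb {jqNModC Kb N} ≤ modularFunctionFieldFullC Kb N :=
    H66.adjoin_jqNModC_le_fullC N Kb
  set FE : Submodule ↥(adjoin Kb {jqNModC Kb N}) (LaurentSeries Kb) :=
    (extendScalars hEF).toSubalgebra.toSubmodule with hFE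
  have hliK := linearIndependent_bar A N u hli
  have hrank : Module.rank ↥(adjoin Kb {jqNModC Kb N}) ↥FE ≤ (n : Cardinal) := by
    have h1 := relrank_fullC_bar_le N
    rw [relrank_eq_rank_of_le hEF] at h1
    exact h1.trans (by exact_mod_cast hn)
  have hfree : Module.Free ↥(adjoin Kb {jqNModC Kb N}) ↥FE := Module.Free.of_divisionRing _ _
  have hfinite : Module.Finite ↥(adjoin Kb {jqNModC Kb N}) ↥FE :=
    Module.rank_lt_aleph0_iff.mp (lt_of_le_of_lt hrank (Cardinal.natCast_lt_aleph0))
  have hle : Submodule.span ↥(adjoin Kb {jqNModC Kb N})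
      (Set.range fun i => coeffMap (Int.castRingHom Kb) (u i)) ≤ FE := by
    rw [Submodule.span_le]
    rintro _ ⟨i, rfl⟩
    exact (mem_extendScalars hEF).mpr (coeffMap_mem_fullC N Kb (hu i))
  have hfin : Module.finrank ↥(adjoin Kb {jqNModC Kb N}) ↥FE ≤
      Module.finrank ↥(adjoin Kb {jqNModC Kb N})
        ↥(Submodule.span ↥(adjoin Kb {jqNModC Kb N})
          (Set.range fun i => coeffMap (Int.castRingHom Kb) (u i))) := by
    rw [finrank_span_eq_card hliK, Fintype.card_fin]
    exact Module.finrank_le_of_rank_le hrank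
  have heq := Submodule.eq_of_le_of_finrank_le hle hfin
  have hfS : f ∈ Submodule.span ↥(adjoin Kb {jqNModC Kb N})
      (Set.range fun i => coeffMap (Int.castRingHom Kb) (u i)) := by
    rw [heq]
    exact (mem_extendScalars hEF).mpr hf
  obtain ⟨c, hc⟩ := (Submodule.mem_span_range_iff_exists_fun _).mp hfS
  obtain ⟨D, hD, P, hP⟩ := exists_common_denom (K := Kb) (jqNModC Kb N)
    (fun i => ((c i : ↥(adjoin Kb {jqNModC Kb N})) : LaurentSeries Kb)) (fun i => (c i).2)
  refine ⟨D, hD, P, ?_⟩
  have hc' : ∑ i, ((c i : ↥(adjoin Kb {jqNModC Kb N})) : LaurentSeries Kb) *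
      coeffMap (Int.castRingHom Kb) (u i) = f := hc
  rw [← hc', Finset.sum_mul]
  refine Finset.sum_congr rfl fun i _ => ?_
  rw [← hP i]; ring

end Indep

section HScaleModular

variable (A : ValuationSubring Kb) {ℓ : ℕ} [Fact ℓ.Prime] (N : ℕ) [NeZero N]

/-- **The scaling hypothesis for the modular function field** `ℚ̄(j(q^d) : d ∣ N)`, `ℓ ∤ N`. -/
theorem hScale_fullC (hA : A.LiesOverPrime ℓ) (hℓN : ¬ ℓ ∣ N) :
    HScale A (modularFunctionFieldFullC Kb N)
      (modularFunctionFieldFullC (IsLocalRing.ResidueField A) N : Set _) := by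
  obtain ⟨u, hu, hli⟩ := H66.exists_indep_monomials N (IsLocalRing.ResidueField A)
    H23.hasModPolys (dedekindPsi_le_relfinrank_res A hA N hℓN)
  intro f hf hf0
  obtain ⟨D, hD, P, hP⟩ := exists_repr A N u hu hli le_rfl hf
  have hPne : ∃ i, P i ≠ 0 := by
    by_contra h
    rw [not_exists] at h
    have h' : ∀ i, P i = 0 := fun i => not_not.mp (h i)
    have h0 : f * aeval (jqNModC Kb N) D = 0 := by
      rw [hP]
      exact Finset.sum_eq_zero fun i _ => by rw [h' i, map_zero, zero_mul]
    exact hf0 ((mul_eq_zero.mp h0).resolve_right hD)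
  have hDne : D ≠ 0 := fun h => hD (by rw [h, map_zero])
  obtain ⟨c₁, hc₁, P', hP', i₀, hi₀⟩ := exists_primitive_scale A P hPne
  obtain ⟨c₂, hc₂, D', hD', ⟨⟩, hD0⟩ := exists_primitive_scale A (fun _ : Unit => D) ⟨(), hDne⟩
  have hred₁ : redA A (∑ i, evA A N (P' i) * monA A (u i)) =
      ∑ i, ((P' i).map (IsLocalRing.residue A)).eval₂ HahnSeries.C
        (jqNModC (IsLocalRing.ResidueField A) N) *
          coeffMap (Int.castRingHom (IsLocalRing.ResidueField A)) (u i) := by
    rw [map_sum]
    refine Finset.sum_congr rfl fun i _ => ?_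
    rw [map_mul, redA_evA, redA_monA]
  have hincl₁ : incl A (∑ i, evA A N (P' i) * monA A (u i)) =
      HahnSeries.C c₁ * (f * aeval (jqNModC Kb N) D) := by
    rw [map_sum, hP, Finset.mul_sum]
    refine Finset.sum_congr rfl fun i _ => ?_
    rw [map_mul, incl_evA, incl_monA, hP', Polynomial.eval₂_mul, Polynomial.eval₂_C,
      eval₂_C_eq_aeval, mul_assoc]
  have hincl₂ : incl A (evA A N (D' ())) = HahnSeries.C c₂ * aeval (jqNModC Kb N) D := by
    rw [incl_evA, hD' (), Polynomial.eval₂_mul, Polynomial.eval₂_C, eval₂_C_eq_aeval]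
  refine ⟨c₂ * c₁⁻¹, mul_ne_zero hc₂ (inv_ne_zero hc₁), ∑ i, evA A N (P' i) * monA A (u i),
    evA A N (D' ()), ?_, ?_, ?_, ?_, ?_, ?_⟩
  · rw [hred₁]
    intro h
    exact hi₀ (indepPoly_res A N u hli _ h i₀)
  · rw [redA_evA]
    intro h
    exact hD0 (H66.eq_zero_of_eval₂_jqNModC_eq_zero _ N _ h)
  · rw [hred₁]
    refine sum_mem fun i _ => ?_
    exact mul_mem (H66.adjoin_jqNModC_le_fullC N _ (eval₂_C_mem_adjoin _ _))
      (coeffMap_mem_fullC N _ (hu i))
  · rw [redA_evA]
    exact H66.adjoin_jqNModC_le_fullC N _ (eval₂_C_mem_adjoin _ _)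
  · rw [incl_evA]
    exact H66.adjoin_jqNModC_le_fullC N _ (eval₂_C_mem_adjoin _ _)
  · rw [hincl₁, hincl₂, map_mul, mul_assoc (HahnSeries.C c₂), ← mul_assoc (HahnSeries.C c₁⁻¹),
      ← map_mul, inv_mul_cancel₀ hc₁, map_one, one_mul]
    ring

end HScaleModular

end Fermat.Agent.S18.H66
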