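/-
S18 / package GaussRing (helper66): FINAL EXPORTS.
For a valuation subring `A` of `ℚ̄` over `ℓ` and a level `N` prime to `ℓ`:
* `gaussO A N hA hℓN : ValuationSubring (modularFunctionFieldBar N)` — the Gauss valuation ring
  (`f = Y₁ / Y₂`, `Y₁, Y₂ ∈ A((q))`, `Y₂ ∈ F`, `Ȳ₂ ≠ 0`);
* `gaussResO : gaussO →+* modularFunctionFieldFullC k N` — the residue map, surjective, with
  kernel the nonunits; it is the coefficientwise reduction on `A((q)) ∩ F`;
* `O ∩ ℚ̄ = A`, the value group of `O` is that of `A`, one-units.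
-/
import Mathlib
import Fermat.Agent.S18.H66.Modular

set_option autoImplicit false

noncomputable section

namespace Fermat.Agent.S18.H66

open ModularCurve HahnSeries IntermediateField

section Exports

variable (A : ValuationSubring Kb) {ℓ : ℕ} [Fact ℓ.Prime] (N : ℕ) [NeZero N]

/-- The scaling hypothesis for `modularFunctionFieldBar N`. -/
theorem hScale_bar (hA : A.LiesOverPrime ℓ) (hℓN : ¬ ℓ ∣ N) :
    HScale A (modularFunctionFieldBar N)
      (modularFunctionFieldFullC (IsLocalRing.ResidueField A) N : Set _) := by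
  rw [modularFunctionFieldBar_eq_fullC]
  exact hScale_fullC A N hA hℓN

/-- **The Gauss valuation ring** of the function field of `X₀(N)` over `ℚ̄`. -/
def gaussO (hA : A.LiesOverPrime ℓ) (hℓN : ¬ ℓ ∣ N) : ValuationSubring ↥(modularFunctionFieldBar N) :=
  gaussRing A (modularFunctionFieldBar N) (hScale_bar A N hA hℓN)

theorem mem_gaussO_iff (hA : A.LiesOverPrime ℓ) (hℓN : ¬ ℓ ∣ N) (f : ↥(modularFunctionFieldBar N)) :
    f ∈ gaussO A N hA hℓN ↔
      ∃ y₁ y₂ : LaurentSeries A, coeffMap (IsLocalRing.residue A) y₂ ≠ 0 ∧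
        coeffMap A.subtype y₂ ∈ modularFunctionFieldBar N ∧
        (f : LaurentSeries Kb) * coeffMap A.subtype y₂ = coeffMap A.subtype y₁ := Iff.rfl

/-- **The residue map** of the Gauss ring, with values in the function field of the reduction. -/
def gaussResO (hA : A.LiesOverPrime ℓ) (hℓN : ¬ ℓ ∣ N) : gaussO A N hA hℓN →+* ↥(modularFunctionFieldFullC (IsLocalRing.ResidueField A) N) :=
  (gaussResHom (hScale_bar A N hA hℓN)).codRestrict
    (modularFunctionFieldFullC (IsLocalRing.ResidueField A) N).toSubring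
    (fun f => gaussResHom_mem (hScale_bar A N hA hℓN) f)

theorem coe_gaussResO (hA : A.LiesOverPrime ℓ) (hℓN : ¬ ℓ ∣ N) (f : gaussO A N hA hℓN) :
    ((gaussResO A N hA hℓN f : ↥(modularFunctionFieldFullC (IsLocalRing.ResidueField A) N)) :
      LaurentSeries (IsLocalRing.ResidueField A)) =
      gaussRes A (modularFunctionFieldBar N) ((f : ↥(modularFunctionFieldBar N)) : LaurentSeries Kb) :=
  rfl

/-- Computation of the residue from a presentation `f = Y₁ / Y₂`. -/
theorem coe_gaussResO_eq (hA : A.LiesOverPrime ℓ) (hℓN : ¬ ℓ ∣ N) (f : gaussO A N hA hℓN) {y₁ y₂ : LaurentSeries A}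
    (hy : coeffMap (IsLocalRing.residue A) y₂ ≠ 0)
    (hyF : coeffMap A.subtype y₂ ∈ modularFunctionFieldBar N)
    (hfy : ((f : ↥(modularFunctionFieldBar N)) : LaurentSeries Kb) * coeffMap A.subtype y₂ =
      coeffMap A.subtype y₁) :
    ((gaussResO A N hA hℓN f : ↥(modularFunctionFieldFullC (IsLocalRing.ResidueField A) N)) :
      LaurentSeries (IsLocalRing.ResidueField A)) =
      coeffMap (IsLocalRing.residue A) y₁ / coeffMap (IsLocalRing.residue A) y₂ := by
  rw [coe_gaussResO]
  exact gaussRes_eq hy hyF hfy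

/-- **Reductions of `A`-integral elements of `F` lie in the reduced function field** (so the
hypothesis `hyk` of `IsPlaceReductionAlong` is automatic). -/
theorem coeffMap_residue_mem (hA : A.LiesOverPrime ℓ) (hℓN : ¬ ℓ ∣ N) (y : LaurentSeries A)
    (hy : coeffMap A.subtype y ∈ modularFunctionFieldBar N) :
    coeffMap (IsLocalRing.residue A) y ∈ modularFunctionFieldFullC (IsLocalRing.ResidueField A) N :=
  redA_mem_of_incl_mem (hScale_bar A N hA hℓN) y hy

/-- `A`-integral elements of `F` lie in the Gauss ring, and the residue map is the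
coefficientwise reduction on them. -/
theorem integral_mem_gaussO (hA : A.LiesOverPrime ℓ) (hℓN : ¬ ℓ ∣ N) (y : LaurentSeries A)
    (hy : coeffMap A.subtype y ∈ modularFunctionFieldBar N) :
    (⟨coeffMap A.subtype y, hy⟩ : ↥(modularFunctionFieldBar N)) ∈ gaussO A N hA hℓN :=
  isGaussInt_incl y

theorem coe_gaussResO_integral (hA : A.LiesOverPrime ℓ) (hℓN : ¬ ℓ ∣ N) (y : LaurentSeries A)
    (hy : coeffMap A.subtype y ∈ modularFunctionFieldBar N) :
    ((gaussResO A N hA hℓN ⟨⟨coeffMap A.subtype y, hy⟩, integral_mem_gaussO A N hA hℓN y hy⟩ :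
      ↥(modularFunctionFieldFullC (IsLocalRing.ResidueField A) N)) :
      LaurentSeries (IsLocalRing.ResidueField A)) = coeffMap (IsLocalRing.residue A) y := by
  rw [coe_gaussResO]
  exact gaussRes_incl y

/-- The kernel of the residue map is the maximal ideal. -/
theorem gaussResO_eq_zero_iff (hA : A.LiesOverPrime ℓ) (hℓN : ¬ ℓ ∣ N) (f : gaussO A N hA hℓN) :
    gaussResO A N hA hℓN f = 0 ↔ ¬ IsUnit f := by
  have key := gaussResHom_eq_zero_iff (hScale_bar A N hA hℓN) f
  constructor
  · intro h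
    exact key.mp (congrArg Subtype.val h)
  · intro h
    exact Subtype.ext (key.mpr h)

/-- Nonunits of the Gauss ring in terms of presentations. -/
theorem mem_nonunits_gaussO_iff (hA : A.LiesOverPrime ℓ) (hℓN : ¬ ℓ ∣ N) (f : ↥(modularFunctionFieldBar N)) :
    f ∈ (gaussO A N hA hℓN).nonunits ↔
      ∃ y₁ y₂ : LaurentSeries A, coeffMap (IsLocalRing.residue A) y₁ = 0 ∧
        coeffMap (IsLocalRing.residue A) y₂ ≠ 0 ∧
        coeffMap A.subtype y₂ ∈ modularFunctionFieldBar N ∧
        (f : LaurentSeries Kb) * coeffMap A.subtype y₂ = coeffMap A.subtype y₁ :=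
  mem_nonunits_gaussRing_iff (hScale_bar A N hA hℓN) f

/-- `O ∩ ℚ̄ = A` (`Setup.mem_iff`). -/
theorem algebraMap_mem_gaussO_iff (hA : A.LiesOverPrime ℓ) (hℓN : ¬ ℓ ∣ N) (a : Kb) :
    algebraMap Kb ↥(modularFunctionFieldBar N) a ∈ gaussO A N hA hℓN ↔ a ∈ A :=
  algebraMap_mem_gaussRing_iff (hScale_bar A N hA hℓN) a

/-- The value group of `O` is that of `A` (`Setup.scale`). -/
theorem exists_scale_gaussO (hA : A.LiesOverPrime ℓ) (hℓN : ¬ ℓ ∣ N) (f : ↥(modularFunctionFieldBar N)) (hf : f ≠ 0) :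
    ∃ c : Kb, c ≠ 0 ∧ algebraMap Kb ↥(modularFunctionFieldBar N) c * f ∈ gaussO A N hA hℓN ∧
      (algebraMap Kb ↥(modularFunctionFieldBar N) c * f)⁻¹ ∈ gaussO A N hA hℓN :=
  exists_scale (hScale_bar A N hA hℓN) f hf

/-- The residue map is onto the function field of the reduction. -/
theorem gaussResO_surjective (hA : A.LiesOverPrime ℓ) (hℓN : ¬ ℓ ∣ N) : Function.Surjective (gaussResO A N hA hℓN) := by
  intro x
  have hT : ∀ z ∈ divisorExpansionsC (IsLocalRing.ResidueField A) N,
      ∃ y : LaurentSeries A, incl A y ∈ modularFunctionFieldBar N ∧ redA A y = z := by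
    rintro z ⟨d, hd, hdN, rfl⟩
    refine ⟨jqNModC A d, ?_, coeffMap_jqNModC _ d⟩
    rw [modularFunctionFieldBar_eq_fullC]
    have h : incl A (jqNModC A d) = qExpand Kb d (jqModC Kb) := coeffMap_jqNModC _ d
    rw [h]
    exact jqModCd_mem_full Kb N hdN
  obtain ⟨g, hg⟩ := exists_gaussResHom_eq (hScale_bar A N hA hℓN)
    (divisorExpansionsC (IsLocalRing.ResidueField A) N) hT rfl x.2
  exact ⟨g, Subtype.ext hg⟩

end Exports

end Fermat.Agent.S18.H66
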