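/-
S18 / package GaussRing (helper66): the B1 / B1c / L0 leaves of the bridge `exists_setup`, in the
shapes of helper28's sub-skeleton (unfolded to Prelude terms):
* `isGaussInt_of_ratio` : the carrier `{f | f·Y₂ = Y₁, Ȳ₂ ≠ 0}` without the clause `Y₂ ∈ F`
  is the same ring;
* `exists_gaussRing` : the Gauss ring with the ratio characterisation and `scale`;
* `ratio_mem_iff`, `ratio_gauss`, `ratio_oneUnit` : consequences of the ratio characterisation
  alone (`Setup.mem_iff`, `Setup.gauss`, the one-unit clause of `exists_setup`);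
* `kA_charP`, `kA_isAlgClosed`, `incA_jA`, `redA_jA`, `transcendental_jqNModC`,
  `psi_le_relfinrank_kA`.
-/
import Mathlib
import Fermat.Agent.S18.H66.GaussRing
import Fermat.Agent.S18.H74.TopDefs

set_option autoImplicit false

noncomputable section

namespace Fermat.Agent.S18.H66

open ModularCurve HahnSeries IntermediateField AlgebraicCurve

section Ratio

variable {K : Type*} [Field K] {A : ValuationSubring K}
  {F : IntermediateField K (LaurentSeries K)}
  {Fk : Set (LaurentSeries (IsLocalRing.ResidueField A))}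

/-- A ratio `f = Y₁ / Y₂` with `Ȳ₂ ≠ 0` (no condition `Y₂ ∈ F`) is Gauss-integral. -/
theorem isGaussInt_of_ratio (hS : HScale A F Fk) {f : LaurentSeries K} (hf : f ∈ F)
    {y₁ y₂ : LaurentSeries A} (hy : redA A y₂ ≠ 0) (h : f * incl A y₂ = incl A y₁) :
    IsGaussInt A F f := by
  by_cases hf0 : f = 0
  · rw [hf0]; exact isGaussInt_zero
  obtain ⟨d, hd, z₁, z₂, hz₁, hz₂, -, -, hz₂F, hfz⟩ := hS f hf hf0
  have hdA : d ∈ A := by
    by_contra hdA
    have hinv : d⁻¹ ∈ A := (A.mem_or_inv_mem d).resolve_left hdA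
    have hnu : ¬ IsUnit (⟨d⁻¹, hinv⟩ : A) := not_isUnit_inv_of_not_mem hdA hinv
    have h1 : z₁ * y₂ = HahnSeries.C (⟨d⁻¹, hinv⟩ : A) * (z₂ * y₁) := by
      apply incl_injective A
      rw [incl_C_mul, map_mul, map_mul, ← h]
      show incl A z₁ * incl A y₂ = HahnSeries.C d⁻¹ * (incl A z₂ * (f * incl A y₂))
      have : incl A z₂ * (f * incl A y₂) = (f * incl A z₂) * incl A y₂ := by ring
      have hCC : (HahnSeries.C d⁻¹ : LaurentSeries K) * HahnSeries.C d = 1 := by
        rw [← map_mul, inv_mul_cancel₀ hd, map_one]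
      rw [this, hfz, ← mul_assoc, ← mul_assoc, hCC, one_mul]
    have h2 := congrArg (redA A) h1
    rw [redA_C_mul_of_nonunit A hnu, map_mul] at h2
    exact mul_ne_zero hz₁ hy h2
  exact ⟨HahnSeries.C (⟨d, hdA⟩ : A) * z₁, z₂, hz₂, hz₂F, by rw [incl_C_mul]; exact hfz⟩

end Ratio

section Exists

/-- **B1** (`exists_gaussRing` of the bridge sub-skeleton): the ratios `Y₁ / Y₂` of `A`-integral
series with `Ȳ₂ ≠ 0` lying in `F_{N'}` form a valuation ring, whose value group is that of `A`. -/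
theorem exists_gaussRing (N' : ℕ) [NeZero N'] {ℓ : ℕ} [Fact ℓ.Prime] (hℓN' : ¬ ℓ ∣ N')
    (A : ValuationSubring Kb) (hA : A.LiesOverPrime ℓ) :
    ∃ O : ValuationSubring ↥(modularFunctionFieldBar N'),
      (∀ f : ↥(modularFunctionFieldBar N'), f ∈ O ↔
        ∃ y₁ y₂ : LaurentSeries A, coeffMap (IsLocalRing.residue A) y₂ ≠ 0 ∧
          (f : LaurentSeries Kb) * coeffMap A.subtype y₂ = coeffMap A.subtype y₁) ∧
      ∀ f : ↥(modularFunctionFieldBar N'), f ≠ 0 →
        ∃ c : Kb, c ≠ 0 ∧ algebraMap Kb ↥(modularFunctionFieldBar N') c * f ∈ O ∧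
          (algebraMap Kb ↥(modularFunctionFieldBar N') c * f)⁻¹ ∈ O := by
  refine ⟨gaussO A N' hA hℓN', fun f => ⟨?_, ?_⟩, exists_scale_gaussO A N' hA hℓN'⟩
  · rintro ⟨y₁, y₂, hy, -, hfy⟩
    exact ⟨y₁, y₂, hy, hfy⟩
  · rintro ⟨y₁, y₂, hy, hfy⟩
    exact isGaussInt_of_ratio (hScale_bar A N' hA hℓN') f.2 hy hfy

end Exists

section RatioRing

variable {A : ValuationSubring Kb} {N N' : ℕ}
  {O : ValuationSubring ↥(modularFunctionFieldBar N')}

/-- **B1c** `O ∩ ℚ̄ = A`, from the ratio characterisation alone. -/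
theorem ratio_mem_iff
    (hO : ∀ f : ↥(modularFunctionFieldBar N'), f ∈ O ↔
      ∃ y₁ y₂ : LaurentSeries A, coeffMap (IsLocalRing.residue A) y₂ ≠ 0 ∧
        (f : LaurentSeries Kb) * coeffMap A.subtype y₂ = coeffMap A.subtype y₁) (a : Kb) :
    algebraMap Kb ↥(modularFunctionFieldBar N') a ∈ O ↔ a ∈ A := by
  have hcoe : ((algebraMap Kb ↥(modularFunctionFieldBar N') a : ↥(modularFunctionFieldBar N')) :
      LaurentSeries Kb) = HahnSeries.C a := by
    rw [C_eq_algebraMap]; rfl
  rw [hO]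
  constructor
  · rintro ⟨y₁, y₂, hy, hfy⟩
    rw [hcoe] at hfy
    by_contra haA
    have ha0 : a ≠ 0 := fun h => haA (h ▸ A.zero_mem)
    have hinv : a⁻¹ ∈ A := (A.mem_or_inv_mem a).resolve_left haA
    have hnu : ¬ IsUnit (⟨a⁻¹, hinv⟩ : A) := not_isUnit_inv_of_not_mem haA hinv
    have h1 : y₂ = HahnSeries.C (⟨a⁻¹, hinv⟩ : A) * y₁ := by
      apply incl_injective A
      rw [incl_C_mul]
      show incl A y₂ = HahnSeries.C a⁻¹ * incl A y₁
      have hfy' : HahnSeries.C a * incl A y₂ = incl A y₁ := hfy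
      rw [← hfy', ← mul_assoc, ← map_mul, inv_mul_cancel₀ ha0, map_one, one_mul]
    apply hy
    show redA A y₂ = 0
    rw [h1]
    exact redA_C_mul_of_nonunit A hnu y₁
  · intro ha
    refine ⟨HahnSeries.C (⟨a, ha⟩ : A), 1, by rw [map_one]; exact one_ne_zero, ?_⟩
    rw [hcoe, map_one, mul_one, coeffMap_C]
    rfl

/-- **B1c** (`Setup.gauss`): primitive polynomials in an integral base function with
transcendental reduction are units of `O`; from the ratio characterisation alone. -/
theorem ratio_gauss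
    (hO : ∀ f : ↥(modularFunctionFieldBar N'), f ∈ O ↔
      ∃ y₁ y₂ : LaurentSeries A, coeffMap (IsLocalRing.residue A) y₂ ≠ 0 ∧
        (f : LaurentSeries Kb) * coeffMap A.subtype y₂ = coeffMap A.subtype y₁)
    (X0 : LaurentSeries A) (x : ↥(modularFunctionFieldBar N'))
    (hx : (x : LaurentSeries Kb) = coeffMap A.subtype X0)
    (htr : Transcendental (IsLocalRing.ResidueField A) (coeffMap (IsLocalRing.residue A) X0))
    (p : Polynomial Kb) (hp : ∀ i, p.coeff i ∈ A)
    (hp1 : ∃ i, p.coeff i ≠ 0 ∧ (p.coeff i)⁻¹ ∈ A) :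
    Polynomial.aeval x p ∈ O ∧ (Polynomial.aeval x p)⁻¹ ∈ O := by
  have hlift : p ∈ Polynomial.lifts A.subtype := by
    rw [Polynomial.lifts_iff_coeff_lifts]
    exact fun n => ⟨⟨_, hp n⟩, rfl⟩
  obtain ⟨P, hP⟩ := (Polynomial.mem_lifts _).mp hlift
  set Y : LaurentSeries A := P.eval₂ HahnSeries.C X0 with hY
  have hinclY : incl A Y = ((Polynomial.aeval x p : ↥(modularFunctionFieldBar N')) :
      LaurentSeries Kb) := by
    have h1 : ((Polynomial.aeval x p : ↥(modularFunctionFieldBar N')) : LaurentSeries Kb) =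
        Polynomial.aeval (x : LaurentSeries Kb) p :=
      (Polynomial.aeval_algHom_apply (modularFunctionFieldBar N').val x p).symm
    rw [h1, hY, Polynomial.hom_eval₂, ← eval₂_C_eq_aeval, ← hP, Polynomial.eval₂_map, hx]
    congr 1
    exact RingHom.ext fun a => coeffMap_C _ a
  have hredY : redA A Y = Polynomial.aeval (coeffMap (IsLocalRing.residue A) X0)
      (P.map (IsLocalRing.residue A)) := by
    rw [hY, Polynomial.hom_eval₂, ← eval₂_C_eq_aeval, Polynomial.eval₂_map]
    congr 1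
    exact RingHom.ext fun a => coeffMap_C _ a
  have hPne : P.map (IsLocalRing.residue A) ≠ 0 := by
    obtain ⟨i, hi0, hinv⟩ := hp1
    intro h0
    have h1 : (P.map (IsLocalRing.residue A)).coeff i = 0 := by
      rw [h0, Polynomial.coeff_zero]
    rw [Polynomial.coeff_map] at h1
    have hc : ((P.coeff i : A) : Kb) = p.coeff i := by
      have := congrArg (fun q => q.coeff i) hP
      simpa [Polynomial.coeff_map] using this
    have hu : IsUnit (P.coeff i) := by
      refine isUnit_iff_exists_inv.mpr ⟨⟨(p.coeff i)⁻¹, hinv⟩, Subtype.ext ?_⟩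
      show ((P.coeff i : A) : Kb) * (p.coeff i)⁻¹ = 1
      rw [hc, mul_inv_cancel₀ hi0]
    exact ((IsLocalRing.residue_eq_zero_iff _).mp h1) hu
  have hredne : redA A Y ≠ 0 := by
    rw [hredY]
    intro h0
    exact hPne ((transcendental_iff.mp htr) _ h0)
  have hYne : incl A Y ≠ 0 := fun h => hredne (by rw [(incl_eq_zero_iff A).mp h, map_zero])
  refine ⟨(hO _).mpr ⟨Y, 1, by rw [map_one]; exact one_ne_zero, by rw [map_one, mul_one]; exact hinclY.symm⟩,
    (hO _).mpr ⟨1, Y, hredne, ?_⟩⟩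
  show ((Polynomial.aeval x p : ↥(modularFunctionFieldBar N')) : LaurentSeries Kb)⁻¹ *
    incl A Y = incl A 1
  rw [← hinclY, map_one, inv_mul_cancel₀ hYne]

/-- **B1c** (last clause of `exists_setup`): one-units of `F_N` are one-units of `O`; from the
ratio characterisation alone. -/
theorem ratio_oneUnit
    (hO : ∀ f : ↥(modularFunctionFieldBar N'), f ∈ O ↔
      ∃ y₁ y₂ : LaurentSeries A, coeffMap (IsLocalRing.residue A) y₂ ≠ 0 ∧
        (f : LaurentSeries Kb) * coeffMap A.subtype y₂ = coeffMap A.subtype y₁)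
    (hle : modularFunctionFieldBar N ≤ modularFunctionFieldBar N')
    (u : ↥(modularFunctionFieldBar N)) (hu : H74.IsOneUnit A N u) :
    (IntermediateField.inclusion hle u : ↥(modularFunctionFieldBar N')) - 1 ∈ O.nonunits := by
  obtain ⟨y₁, y₂, heq, hy₂, -, huy⟩ := hu
  set w : ↥(modularFunctionFieldBar N') := IntermediateField.inclusion hle u - 1 with hw
  have hwcoe : (w : LaurentSeries Kb) = (u : LaurentSeries Kb) - 1 := rfl
  have hwy : (w : LaurentSeries Kb) * incl A y₂ = incl A (y₁ - y₂) := by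
    rw [hwcoe, sub_mul, one_mul, map_sub]
    show (u : LaurentSeries Kb) * coeffMap A.subtype y₂ - coeffMap A.subtype y₂ = _
    rw [huy]
  have hwO : w ∈ O := (hO w).mpr ⟨y₁ - y₂, y₂, hy₂, hwy⟩
  rw [ValuationSubring.mem_nonunits_iff_exists_mem_maximalIdeal]
  refine ⟨hwO, (IsLocalRing.mem_maximalIdeal _).mpr ?_⟩
  intro hunit
  obtain ⟨g, hg⟩ := hunit.exists_right_inv
  obtain ⟨z₁, z₂, hz, hgz⟩ := (hO (g : ↥(modularFunctionFieldBar N'))).mp g.2
  have hwg : (w : LaurentSeries Kb) * ((g : ↥(modularFunctionFieldBar N')) : LaurentSeries Kb) = 1 := by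
    have := congrArg (fun x : O => ((x : ↥(modularFunctionFieldBar N')) : LaurentSeries Kb)) hg
    simpa using this
  have h1 : (y₁ - y₂) * z₁ = y₂ * z₂ := by
    apply incl_injective A
    rw [map_mul, map_mul, ← hwy]
    show (w : LaurentSeries Kb) * incl A y₂ * coeffMap A.subtype z₁ = incl A y₂ * incl A z₂
    rw [← hgz]
    have : (w : LaurentSeries Kb) * incl A y₂ *
        (((g : ↥(modularFunctionFieldBar N')) : LaurentSeries Kb) * coeffMap A.subtype z₂) =
        ((w : LaurentSeries Kb) * ((g : ↥(modularFunctionFieldBar N')) : LaurentSeries Kb)) *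
          (incl A y₂ * coeffMap A.subtype z₂) := by ring
    rw [this, hwg, one_mul]
  have h2 := congrArg (redA A) h1
  rw [map_mul, map_mul, map_sub] at h2
  have h3 : redA A y₁ - redA A y₂ = 0 := by
    show coeffMap (IsLocalRing.residue A) y₁ - coeffMap (IsLocalRing.residue A) y₂ = 0
    rw [heq, sub_self]
  rw [h3, zero_mul] at h2
  exact mul_ne_zero hy₂ hz h2.symm

end RatioRing

section Small

/-- **L0**. -/
theorem kA_charP (A : ValuationSubring Kb) {ℓ : ℕ} [Fact ℓ.Prime] (hA : A.LiesOverPrime ℓ) :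
    CharP (IsLocalRing.ResidueField A) ℓ := charP_residueField A hA

/-- **L0**. -/
theorem kA_isAlgClosed (A : ValuationSubring Kb) : IsAlgClosed (IsLocalRing.ResidueField A) :=
  inferInstance

theorem incA_jA (A : ValuationSubring Kb) (d : ℕ) [NeZero d] :
    coeffMap A.subtype (jqNModC A d) = coeffEmb Kb (qExpand ℚ d jq) := by
  rw [coeffEmb_qExpand_jq d]
  exact coeffMap_jqNModC _ d

theorem redA_jA (A : ValuationSubring Kb) (d : ℕ) [NeZero d] :
    coeffMap (IsLocalRing.residue A) (jqNModC A d) = jqNModC (IsLocalRing.ResidueField A) d :=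
  coeffMap_jqNModC _ d

theorem transcendental_jqNModC (k : Type) [Field k] (d : ℕ) [NeZero d] :
    Transcendental k (jqNModC k d) := by
  rw [transcendental_iff]
  intro p hp
  rw [← eval₂_C_eq_aeval] at hp
  exact Fermat.Agent.S28.H66.eq_zero_of_eval₂_jqNModC_eq_zero k d p hp

/-- `ψ(N') ≤ [F_k : k(j̄(q^{N'}))]`. -/
theorem psi_le_relfinrank_kA (N' : ℕ) [NeZero N'] {ℓ : ℕ} [Fact ℓ.Prime] (hℓN' : ¬ ℓ ∣ N')
    (A : ValuationSubring Kb) (hA : A.LiesOverPrime ℓ) :
    dedekindPsi N' ≤ IntermediateField.relfinrank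
      (IntermediateField.adjoin (IsLocalRing.ResidueField A)
        {jqNModC (IsLocalRing.ResidueField A) N'})
      (modularFunctionFieldFullC (IsLocalRing.ResidueField A) N') :=
  dedekindPsi_le_relfinrank_res A hA N' hℓN'

end Small

end Fermat.Agent.S18.H66
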