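/-
S18 / Program J, node `key_gen` of the C1 sub-skeleton (owner helper69), NORM HALF (helper66).

In the vocabulary of helper80 (`OL`, residue fields), helper5 (`Rbar`, `Sbar`) and helper4
(`DiscResidue`):

* `discResidue_of_setup`            : helper4's residue data for `(OL O x, residue, Rbar A O x b)`;
* `isDiscreteValuationRing_Rbar`,
  `isFractionRing_Rbar`             : `Rbar` is a DVR with fraction field `κ_L`;
* `exists_factor_of_associated` (N5): a Gauss unit `d` of `R_b` whose reduction is a uniformiser of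
                                      `Rbar` is `(x - c0) * ε`, `c0` in the disc, `ε ∈ R_b^×`;
* `norm_mem_discRing` (N1)          : the norm of an element of `S_b` lies in `S_b`;
* `norm_factor`                     : if `Norm_{κ/κ_L} (red τ) = ϖ * (unit of Rbar)` for `τ ∈ S_b`
                                      a Gauss unit, then `Norm_{F/K(x)} τ = (x - c0) * ε`.
-/
import Fermat.Agent.S18.H5.Defs
import Fermat.Agent.S18.H4.DiscDVR
import Fermat.Agent.S18.H80.OfSetup
import Fermat.Agent.S18.H46.FibLocal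
import Fermat.Agent.S18.H42.Fibres
import Fermat.Agent.S18.H22.Subspaces

set_option autoImplicit false
set_option linter.style.haveILetI false

open AlgebraicCurve IntermediateField IsLocalRing Polynomial

noncomputable section

namespace Fermat.Agent.S18.H66

open Fermat.Agent.S18.H74 Fermat.Agent.S18.H80 Fermat.Agent.S18.H5

variable {K : Type*} [Field K] {A : ValuationSubring K} {F : Type*} [Field F] [Algebra K F]
  {O : ValuationSubring F} {x : F}

/-- In a domain, a power of an irreducible element associated to it is the first power. -/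
theorem eq_one_of_associated_pow {R : Type*} [CommRing R] [IsDomain R] {ϖ : R}
    (hϖ : Irreducible ϖ) {n : ℕ} (h : Associated (ϖ ^ n) ϖ) : n = 1 := by
  obtain ⟨u, hu⟩ := h
  rcases n with _ | _ | n
  · exfalso
    apply hϖ.not_isUnit
    rw [← hu, pow_zero, one_mul]
    exact u.isUnit
  · rfl
  · exfalso
    have h1 : ϖ * (ϖ ^ (n + 1) * u) = ϖ * 1 := by
      rw [mul_one]
      conv_rhs => rw [← hu]
      ring
    have h2 := mul_left_cancel₀ hϖ.ne_zero h1
    exact hϖ.not_isUnit (IsUnit.of_mul_eq_one (ϖ ^ n * u) (by rw [← h2]; ring))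

/-- helper4's residue data for helper80's `OL`, its residue map and helper5's `Rbar`. -/
theorem discResidue_of_setup [IsAlgClosed K] [CharZero K] (hA : A ≠ ⊤) (hS : Setup K A F O x)
    (b : K) (hb : b ∈ A) :
    Fermat.Agent.S18.H4.DiscResidue A O x b (OL (K := K) O x) (residue ↥(OL (K := K) O x))
      (Rbar A O x b) := by
  haveI := hS.finite
  have hx : Transcendental K x :=
    Fermat.Agent.S18.H22.transcendental_of_gauss hA hS.mem_iff hS.gauss
  exact
    { mem_iff := hS.mem_iff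
      gauss := hS.gauss
      mem_A := hb
      fib := fun c _ => Fermat.Agent.S18.H42.exists_over x hx c
      mem_OL := fun r => Iff.rfl
      red_eq_zero := fun r => by
        rw [residue_eq_zero_iff, mem_maximalIdeal_OL_iff]
      mem_R := fun z => mem_Rbar A O x b }

/-- `Rbar = red(R_b)` is a discrete valuation ring. -/
theorem isDiscreteValuationRing_Rbar [IsAlgClosed K] [CharZero K] (hA : A ≠ ⊤)
    (hS : Setup K A F O x) (b : K) (hb : b ∈ A) :
    IsDiscreteValuationRing ↥(Rbar A O x b) :=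
  (discResidue_of_setup hA hS b hb).isDiscreteValuationRing

/-- The residue field `κ_L` of `O ∩ K(x)` is the fraction field of `Rbar`. -/
theorem isFractionRing_Rbar [IsAlgClosed K] [CharZero K] (hA : A ≠ ⊤)
    (hS : Setup K A F O x) (b : K) (hb : b ∈ A) :
    IsFractionRing ↥(Rbar A O x b) (ResidueField ↥(OL (K := K) O x)) :=
  (discResidue_of_setup hA hS b hb).isFractionRing residue_surjective

/-- **(N5)** A Gauss unit `d` of `R_b` whose reduction is associated to the uniformiser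
`red (x - b)` of `R = red(R_b)` has exactly one zero `c0` on the disc:
`d = (x - c0) * ε` with `ε` a unit of `R_b`. -/
theorem exists_factor_of_associated [IsAlgClosed K] {b : K}
    {OL' : ValuationSubring K⟮x⟯} {κL : Type*} [Field κL] {red : ↥OL' →+* κL} {R : Subring κL}
    (h : Fermat.Agent.S18.H4.DiscResidue A O x b OL' red R)
    {xb : ↥OL'} (hxb : ((xb : K⟮x⟯) : F) = x - algebraMap K F b) {ϖ : ↥R}
    (hϖ : (ϖ : κL) = red xb)
    {d : ↥OL'} (hd : ((d : K⟮x⟯) : F) ∈ discRing A O x b) (hdO' : (((d : K⟮x⟯) : F))⁻¹ ∈ O)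
    {dbar : ↥R} (hdbar : (dbar : κL) = red d) (hassoc : Associated ϖ dbar) :
    ∃ (c0 : K) (ε : K⟮x⟯), c0 - b ∈ A.nonunits ∧
      ((d : K⟮x⟯) : F) = (x - algebraMap K F c0) * (ε : F) ∧
      (ε : F) ∈ discRing A O x b ∧ (ε : F)⁻¹ ∈ discRing A O x b := by
  have hϖ0 := h.unif_ne_zero hxb hϖ
  have hirr := h.irreducible hxb hϖ
  have hd0 : ((d : K⟮x⟯) : F) ≠ 0 := by
    intro h0
    have h1 : red d = 0 := by
      rw [h.red_eq_zero, h0, ValuationSubring.mem_nonunits_iff, map_zero]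
      exact zero_lt_one
    have h2 : dbar = 0 := Subtype.ext (by rw [hdbar, h1]; rfl)
    rw [h2] at hassoc
    exact hϖ0 ((associated_zero_iff_eq_zero ϖ).1 hassoc)
  obtain ⟨p, q, hp, -, -, hqc, hpq⟩ :=
    Fermat.Agent.S18.H4.exists_disc_normal_form h.mem_iff h.gauss b h.fib d.1.2 hd0 hd.1 hdO'
      (fun P hP => hd.2 P hP)
  have hassoc2 := h.associated_pow hxb hϖ hd hd0 hdO' hp hqc hpq hdbar
  have hn : Fermat.Agent.S18.H4.discZeros A b p = 1 :=
    eq_one_of_associated_pow hirr (hassoc2.trans hassoc.symm)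
  obtain ⟨ε, s, hεK, hε0, hεO, hεO', hεord, hs, hcard, hfac⟩ :=
    Fermat.Agent.S18.H4.exists_disc_factorisation h.gauss h.transcendental h.mem_A d.1.2 hd0
      hd.1 hdO' hp hqc hpq
  rw [hn] at hcard
  obtain ⟨c0, rfl⟩ := Multiset.card_eq_one.mp hcard
  refine ⟨c0, ⟨ε, hεK⟩, hs c0 (Multiset.mem_singleton_self c0), ?_,
    ⟨hεO, fun P hP => (hεord P hP).ge⟩, ⟨hεO', fun P hP => ?_⟩⟩
  · rw [hfac]
    simp [mul_comm]
  · rw [P.ord_inv, hεord P hP, neg_zero]

/-- **(N1)** The norm of an element of `S_b` lies in `S_b` (so in `R_b = S_b ∩ K(x)`). -/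
theorem norm_mem_discRing [IsAlgClosed K] [CharZero K] (hA : A ≠ ⊤) (hS : Setup K A F O x)
    (b : K) {τ : F} (hτ : τ ∈ discRing A O x b) :
    ((Algebra.norm K⟮x⟯ τ : K⟮x⟯) : F) ∈ discRing A O x b := by
  haveI := hS.finite
  have hx : Transcendental K x :=
    Fermat.Agent.S18.H22.transcendental_of_gauss hA hS.mem_iff hS.gauss
  obtain ⟨θ, D⟩ := exists_resData hA hS
  refine ⟨?_, ?_⟩
  · have h1 := D.coe_normO ⟨τ, hτ.1⟩
    rw [← h1]
    exact (D.normO ⟨τ, hτ.1⟩).2
  · rintro P ⟨c, hc, hP⟩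
    exact Fermat.Agent.S18.H46.ord_norm_nonneg x hx c (fun P' hP' => hτ.2 P' ⟨c, hc, hP'⟩) P hP

/-- **Norm half of `key_gen`.**  Let `τ ∈ S_b` be a Gauss unit.  If the norm of its reduction
`red τ` from the residue field `κ` of `O` to the residue field `κ_L` of `O ∩ K(x)` is a uniformiser
of the discrete valuation ring `Rbar = red(R_b)` times a unit, then
`Norm_{F/K(x)} τ = (x - c0) * ε` with `c0` in the residue disc of `b` and `ε` a unit of `R_b`. -/
theorem norm_factor [IsAlgClosed K] [CharZero K] (hA : A ≠ ⊤) (hS : Setup K A F O x)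
    (b : K) (hb : b ∈ A) {τ : F} (hτ : τ ∈ discRing A O x b) (hτO : τ⁻¹ ∈ O)
    (ϖ ε : ↥(Rbar A O x b)) (hϖ : Irreducible ϖ) (hε : IsUnit ε)
    (hN : Algebra.norm (ResidueField ↥(OL (K := K) O x)) (residue ↥O ⟨τ, hτ.1⟩)
      = algebraMap ↥(Rbar A O x b) (ResidueField ↥(OL (K := K) O x)) (ϖ * ε)) :
    ∃ (c0 : K) (ε : K⟮x⟯), c0 - b ∈ A.nonunits ∧
      ((Algebra.norm K⟮x⟯ τ : K⟮x⟯) : F) = (x - algebraMap K F c0) * (ε : F) ∧
      (ε : F) ∈ discRing A O x b ∧ (ε : F)⁻¹ ∈ discRing A O x b := by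
  haveI := hS.finite
  by_cases hτ0 : τ = 0
  · refine ⟨b, 0, ?_, ?_, ?_, ?_⟩
    · rw [sub_self, ValuationSubring.mem_nonunits_iff, map_zero]
      exact zero_lt_one
    · rw [hτ0, Algebra.norm_zero]
      simp
    · have h0 : ((0 : K⟮x⟯) : F) = 0 := rfl
      rw [h0, ← hτ0]
      exact hτ
    · have h0 : ((0 : K⟮x⟯) : F)⁻¹ = 0 := by simp
      rw [h0, ← hτ0]
      exact hτ
  have h := discResidue_of_setup hA hS b hb
  haveI := h.isDiscreteValuationRing
  obtain ⟨xb, ϖ₀, hxb, hϖ₀⟩ := h.exists_unif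
  have hirr₀ := h.irreducible hxb hϖ₀
  obtain ⟨θ, D⟩ := exists_resData hA hS
  set d : ↥(OL (K := K) O x) := D.normO ⟨τ, hτ.1⟩ with hd_def
  have hdcoe : ((d : K⟮x⟯) : F) = ((Algebra.norm K⟮x⟯ τ : K⟮x⟯) : F) := by
    rw [hd_def, D.coe_normO]
  have hd : ((d : K⟮x⟯) : F) ∈ discRing A O x b := by
    rw [hdcoe]
    exact norm_mem_discRing hA hS b hτ
  have hdO' : (((d : K⟮x⟯) : F))⁻¹ ∈ O := by
    have h1 := D.coe_normO ⟨τ⁻¹, hτO⟩
    have h3 : Algebra.norm K⟮x⟯ τ * Algebra.norm K⟮x⟯ τ⁻¹ = 1 := by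
      rw [← map_mul, mul_inv_cancel₀ hτ0, map_one]
    have h2 : ((Algebra.norm K⟮x⟯ τ : K⟮x⟯) : F)⁻¹
        = ((D.normO ⟨τ⁻¹, hτO⟩ : ↥(OL (K := K) O x)) : K⟮x⟯) := by
      rw [h1, ← IntermediateField.coe_inv, inv_eq_of_mul_eq_one_right h3]
    rw [hdcoe, h2]
    exact (D.normO ⟨τ⁻¹, hτO⟩).2
  have hred : residue ↥(OL (K := K) O x) d
      = algebraMap ↥(Rbar A O x b) (ResidueField ↥(OL (K := K) O x)) (ϖ * ε) := by
    rw [hd_def, D.residue_normO, hN]
  have hdbar : ((ϖ * ε : ↥(Rbar A O x b)) : ResidueField ↥(OL (K := K) O x))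
      = residue ↥(OL (K := K) O x) d := hred.symm
  have hassoc : Associated ϖ₀ (ϖ * ε) :=
    (IsDiscreteValuationRing.associated_of_irreducible _ hirr₀ hϖ).trans
      ⟨hε.unit, by rw [IsUnit.unit_spec]⟩
  obtain ⟨c0, ε', hc0, hfac, hε1, hε2⟩ :=
    exists_factor_of_associated h hxb hϖ₀ hd hdO' hdbar hassoc
  exact ⟨c0, ε', hc0, by rw [← hdcoe, hfac], hε1, hε2⟩

end Fermat.Agent.S18.H66
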