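/-
S18 / package GaussRing (helper66): the B2t leaves of the bridge `exists_setup` (degrees for the
top function `j(q^{N'})`), and the lifting of residue-independent families:
* `jFN`, `jtop`; `finite_top`, `finrank_top_le` : `[F_{N'} : ℚ̄(j(q^{N'}))] ≤ ψ(N')`;
* `exists_lifts_of_le_relfinrank` : `n ≤ [F_k : E₀]` elements of the Gauss ring whose residues
  are linearly independent over `E₀` (the hypothesis `hdeg` of the generic `Setup.basis`);
* `gaussResHom_algebraMap`, `jtop_mem_gaussO`, `gaussResO_jtop`.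
-/
import Mathlib
import Fermat.Agent.S18.H66.Leaves

set_option autoImplicit false

noncomputable section

namespace Fermat.Agent.S18.H66

open ModularCurve HahnSeries IntermediateField AlgebraicCurve

/-- `j(q^d)` as an element of `F_{N'}`, for `d ∣ N'`. -/
def jFN (N' d : ℕ) [NeZero d] (hd : d ∣ N') : ↥(modularFunctionFieldBar N') :=
  ⟨coeffEmb Kb (qExpand ℚ d jq), coeffEmb_mem_laurentBaseChange Kb (jqd_mem_full N' hd)⟩

/-- The top function `j(q^{N'})` of `F_{N'}`. -/
abbrev jtop (N' : ℕ) [NeZero N'] : ↥(modularFunctionFieldBar N') := jFN N' N' dvd_rfl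

theorem coe_jFN (N' d : ℕ) [NeZero d] (hd : d ∣ N') :
    ((jFN N' d hd : ↥(modularFunctionFieldBar N')) : LaurentSeries Kb) = jqNModC Kb d :=
  coeffEmb_qExpand_jq d

section Top

variable (N' : ℕ) [NeZero N']

/-- `[F_{N'} : ℚ̄(j(q^{N'}))] ≤ ψ(N')`, as a rank. -/
theorem rank_top_le :
    Module.rank ↥(Kb⟮jtop N'⟯) ↥(modularFunctionFieldBar N') ≤ (dedekindPsi N' : Cardinal) := by
  have h1 := relrank_map_map (Kb⟮jtop N'⟯) (⊤ : IntermediateField Kb ↥(modularFunctionFieldBar N'))
    (modularFunctionFieldBar N').val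
  rw [relrank_top_right] at h1
  rw [← h1, adjoin_map, Set.image_singleton, ← AlgHom.fieldRange_eq_map, fieldRange_val]
  have h2 : (modularFunctionFieldBar N').val (jtop N') = jqNModC Kb N' := coe_jFN N' N' dvd_rfl
  rw [h2, modularFunctionFieldBar_eq_fullC]
  exact relrank_fullC_bar_le N'

/-- `F_{N'} / ℚ̄(j(q^{N'}))` is finite. -/
theorem finite_top : FiniteDimensional ↥(Kb⟮jtop N'⟯) ↥(modularFunctionFieldBar N') := by
  have hfree : Module.Free ↥(Kb⟮jtop N'⟯) ↥(modularFunctionFieldBar N') :=
    Module.Free.of_divisionRing _ _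
  exact Module.rank_lt_aleph0_iff.mp
    (lt_of_le_of_lt (rank_top_le N') (Cardinal.natCast_lt_aleph0))

/-- `[F_{N'} : ℚ̄(j(q^{N'}))] ≤ ψ(N')`. -/
theorem finrank_top_le :
    Module.finrank ↥(Kb⟮jtop N'⟯) ↥(modularFunctionFieldBar N') ≤ dedekindPsi N' :=
  Module.finrank_le_of_rank_le (rank_top_le N')

end Top

section Lift

variable (A : ValuationSubring Kb) {ℓ : ℕ} [Fact ℓ.Prime] (N : ℕ) [NeZero N]

/-- The residue of a constant. -/
theorem gaussResHom_algebraMap (hA : A.LiesOverPrime ℓ) (hℓN : ¬ ℓ ∣ N) (a : A)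
    (h : algebraMap Kb ↥(modularFunctionFieldBar N) (a : Kb) ∈ gaussO A N hA hℓN) :
    gaussResHom (hScale_bar A N hA hℓN) ⟨algebraMap Kb ↥(modularFunctionFieldBar N) (a : Kb), h⟩ =
      algebraMap (IsLocalRing.ResidueField A) (LaurentSeries (IsLocalRing.ResidueField A))
        (IsLocalRing.residue A a) := by
  rw [gaussResHom_apply]
  have hcoe : ((algebraMap Kb ↥(modularFunctionFieldBar N) (a : Kb) : ↥(modularFunctionFieldBar N)) :
      LaurentSeries Kb) = incl A (HahnSeries.C a) := by
    rw [coeffMap_C, C_eq_algebraMap]; rfl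
  show gaussRes A (modularFunctionFieldBar N)
    ((algebraMap Kb ↥(modularFunctionFieldBar N) (a : Kb) : ↥(modularFunctionFieldBar N)) :
      LaurentSeries Kb) = _
  rw [hcoe, gaussRes_incl, coeffMap_C, C_eq_algebraMap]

/-- The functions `j(q^d)`, `d ∣ N`, lie in the Gauss ring. -/
theorem jFN_mem_gaussO (hA : A.LiesOverPrime ℓ) (hℓN : ¬ ℓ ∣ N) (d : ℕ) [NeZero d] (hd : d ∣ N) :
    jFN N d hd ∈ gaussO A N hA hℓN := by
  have h : ((jFN N d hd : ↥(modularFunctionFieldBar N)) : LaurentSeries Kb) =
      incl A (jqNModC A d) := (incA_jA A d).symm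
  show IsGaussInt A (modularFunctionFieldBar N)
    ((jFN N d hd : ↥(modularFunctionFieldBar N)) : LaurentSeries Kb)
  rw [h]
  exact isGaussInt_incl _

/-- The residue of `j(q^d)` is `j̄(q^d)`. -/
theorem coe_gaussResO_jFN (hA : A.LiesOverPrime ℓ) (hℓN : ¬ ℓ ∣ N) (d : ℕ) [NeZero d]
    (hd : d ∣ N) :
    ((gaussResO A N hA hℓN ⟨jFN N d hd, jFN_mem_gaussO A N hA hℓN d hd⟩ :
      ↥(modularFunctionFieldFullC (IsLocalRing.ResidueField A) N)) :
      LaurentSeries (IsLocalRing.ResidueField A)) = jqNModC (IsLocalRing.ResidueField A) d := by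
  rw [coe_gaussResO]
  have h : ((jFN N d hd : ↥(modularFunctionFieldBar N)) : LaurentSeries Kb) =
      incl A (jqNModC A d) := (incA_jA A d).symm
  show gaussRes A (modularFunctionFieldBar N)
    ((jFN N d hd : ↥(modularFunctionFieldBar N)) : LaurentSeries Kb) = _
  rw [h, gaussRes_incl]
  exact redA_jA A d

/-- **Lifting residue-independent families**: for an intermediate field `E₀ ≤ F_k` and
`n ≤ [F_k : E₀]` there are `n` elements of the Gauss ring whose residues are linearly independent
over `E₀`. -/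
theorem exists_lifts_of_le_relfinrank (hA : A.LiesOverPrime ℓ) (hℓN : ¬ ℓ ∣ N)
    (E₀ : IntermediateField (IsLocalRing.ResidueField A)
      (LaurentSeries (IsLocalRing.ResidueField A)))
    (hE₀ : E₀ ≤ modularFunctionFieldFullC (IsLocalRing.ResidueField A) N) {n : ℕ}
    (hn : n ≤ relfinrank E₀ (modularFunctionFieldFullC (IsLocalRing.ResidueField A) N)) :
    ∃ t : Fin n → gaussO A N hA hℓN,
      LinearIndependent ↥E₀ (fun i =>
        ((gaussResO A N hA hℓN (t i) :
          ↥(modularFunctionFieldFullC (IsLocalRing.ResidueField A) N)) :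
          LaurentSeries (IsLocalRing.ResidueField A))) := by
  have hcard : (n : Cardinal) ≤
      relrank E₀ (modularFunctionFieldFullC (IsLocalRing.ResidueField A) N) := by
    rcases lt_or_ge (relrank E₀ (modularFunctionFieldFullC (IsLocalRing.ResidueField A) N))
      Cardinal.aleph0 with hlt | hge
    · rw [← Cardinal.cast_toNat_of_lt_aleph0 hlt]
      exact_mod_cast hn
    · exact (Cardinal.natCast_lt_aleph0.le).trans hge
  rw [relrank_eq_rank_of_le hE₀] at hcard
  have hspan : Submodule.span ↥E₀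
      ((modularFunctionFieldFullC (IsLocalRing.ResidueField A) N : Set
        (LaurentSeries (IsLocalRing.ResidueField A)))) =
      (extendScalars hE₀).toSubalgebra.toSubmodule := by
    have : ((modularFunctionFieldFullC (IsLocalRing.ResidueField A) N : Set
        (LaurentSeries (IsLocalRing.ResidueField A)))) =
        ((extendScalars hE₀).toSubalgebra.toSubmodule : Set _) := rfl
    rw [this, Submodule.span_eq]
  have hrank : (n : Cardinal) ≤ Module.rank ↥E₀ ↥(Submodule.span ↥E₀
      ((modularFunctionFieldFullC (IsLocalRing.ResidueField A) N : Set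
        (LaurentSeries (IsLocalRing.ResidueField A))))) := by
    rw [hspan]
    exact hcard
  obtain ⟨v, hvT, hvli⟩ := Fermat.Agent.S28.H66.exists_fin_linearIndependent_of_le_rank _ hrank
  choose t ht using fun i => gaussResO_surjective A N hA hℓN ⟨v i, hvT i⟩
  refine ⟨t, ?_⟩
  have : (fun i => ((gaussResO A N hA hℓN (t i) :
      ↥(modularFunctionFieldFullC (IsLocalRing.ResidueField A) N)) :
      LaurentSeries (IsLocalRing.ResidueField A))) = v := by
    funext i
    rw [ht i]
  rw [this]
  exact hvli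

end Lift

end Fermat.Agent.S18.H66
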